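import Fermat.Agent.S48.H188.Gamma

set_option autoImplicit false

open scoped MatrixGroups ModularForm
open UpperHalfPlane CongruenceSubgroup Matrix

namespace Fermat.Agent.S48.H188

noncomputable section

variable {k : ℤ} {N : ℕ} {p : ℕ}

lemma slash_gl_congr (F : ℍ → ℂ) {a b c d a' b' c' d' : ℤ} (ha : a = a') (hb : b = b')
    (hc : c = c') (hd : d = d') : F ∣[k] gl a b c d = F ∣[k] gl a' b' c' d' := by
  subst ha hb hc hd; rfl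

/-- Case (a): `β_j γ ∈ Γ₁(N) β_{j'}`. -/
lemma slash_beta_gamma_finite (hp : 0 < p) {F : ℍ → ℂ} (hF : Inv1 N k F) {γ : SL(2, ℤ)}
    (hγ : γ ∈ Gamma1 N) (j j' : ℤ)
    (hdiv : (p : ℤ) ∣ (γ 0 1 + j * γ 1 1) - j' * (γ 0 0 + j * γ 1 0)) :
    (F ∣[k] gl 1 j 0 p) ∣[k] γ = F ∣[k] gl 1 j' 0 p := by
  obtain ⟨y, hy⟩ := hdiv
  have hdet := SL_det_eq γ
  obtain ⟨hγ0, hγ1⟩ := mem_Gamma1_iff.mp hγ
  have hc : ((γ 1 0 : ℤ) : ZMod N) = 0 := Gamma0_mem.mp hγ0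
  have hd : ((γ 1 1 : ℤ) : ZMod N) = 1 := hγ1
  set a := γ 0 0
  set b := γ 0 1
  set c := γ 1 0
  set d := γ 1 1
  have hdet1 : (a + j * c) * (d - j' * c) - y * (p * c) = 1 := by
    linear_combination hdet + c * hy
  have hg1 : sl (a + j * c) y (p * c) (d - j' * c) hdet1 ∈ Gamma1 N := by
    rw [mem_Gamma1_iff, Gamma0_mem]
    refine ⟨?_, ?_⟩
    · simp only [sl_10]; push_cast; rw [hc]; ring
    · simp only [dd, sl_11]; push_cast; rw [hc, hd]; ring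
  have hpne : (1 : ℤ) * (p : ℤ) - j * 0 ≠ 0 := by simp; exact hp.ne'
  have hpne' : (1 : ℤ) * (p : ℤ) - j' * 0 ≠ 0 := by simp; exact hp.ne'
  rw [slash_gl_SL F γ hpne]
  conv_rhs => rw [← hF _ hg1, slash_SL_gl F _ hpne']
  simp only [sl_00, sl_01, sl_10, sl_11]
  apply slash_gl_congr
  · ring
  · linear_combination hy
  · ring
  · ring

/-- Case (b): `β_j γ ∈ Γ₀(N)_p α`. -/
lemma slash_beta_gamma_infty (hp : 0 < p) {F : ℍ → ℂ} (hF : Inv1 N k F) {γ : SL(2, ℤ)}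
    (hγ : γ ∈ Gamma1 N) {γp : SL(2, ℤ)} (hγp : γp ∈ Gamma0 N) (hdp : dd N γp = (p : ZMod N))
    (j : ℤ) (hdiv : (p : ℤ) ∣ (γ 0 0 + j * γ 1 0)) :
    (F ∣[k] gl 1 j 0 p) ∣[k] γ = (F ∣[k] γp) ∣[k] gl p 0 0 1 := by
  obtain ⟨x, hx⟩ := hdiv
  have hdet := SL_det_eq γ
  obtain ⟨hγ0, hγ1⟩ := mem_Gamma1_iff.mp hγ
  have hc : ((γ 1 0 : ℤ) : ZMod N) = 0 := Gamma0_mem.mp hγ0
  have hd : ((γ 1 1 : ℤ) : ZMod N) = 1 := hγ1
  set a := γ 0 0
  set b := γ 0 1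
  set c := γ 1 0
  set d := γ 1 1
  have hdet0 : x * (p * d) - (b + j * d) * c = 1 := by
    linear_combination hdet - d * hx
  have hg0 : sl x (b + j * d) c (p * d) hdet0 ∈ Gamma0 N := by
    rw [Gamma0_mem]; simpa using hc
  have hdd : dd N (sl x (b + j * d) c (p * d) hdet0) = dd N γp := by
    rw [hdp]; simp only [dd, sl_11]; push_cast; rw [hd]; ring
  have hpne : (1 : ℤ) * (p : ℤ) - j * 0 ≠ 0 := by simp; exact hp.ne'
  have hpne' : ((p : ℤ)) * 1 - 0 * 0 ≠ 0 := by simp; exact hp.ne'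
  rw [slash_gl_SL F γ hpne, ← hF.slash_eq_of_dd_eq hg0 hγp hdd, slash_SL_gl F _ hpne']
  simp only [sl_00, sl_01, sl_10, sl_11]
  apply slash_gl_congr
  · linear_combination hx
  · ring
  · ring
  · ring

/-- Case (c): `α γ ∈ Γ₀(N)_{1/p} β_{j'}`. -/
lemma slash_alpha_gamma_finite (hp : 0 < p) {F : ℍ → ℂ} (hF : Inv1 N k F) {γ : SL(2, ℤ)}
    (hγ : γ ∈ Gamma1 N) {γp : SL(2, ℤ)} (hγp : γp ∈ Gamma0 N) (hdp : dd N γp = (p : ZMod N))
    (j' : ℤ) (hdiv : (p : ℤ) ∣ (γ 1 1 - j' * γ 1 0)) :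
    ((F ∣[k] γp) ∣[k] gl p 0 0 1) ∣[k] γ = F ∣[k] gl 1 j' 0 p := by
  obtain ⟨z, hz⟩ := hdiv
  have hdet := SL_det_eq γ
  obtain ⟨hγ0, hγ1⟩ := mem_Gamma1_iff.mp hγ
  have hc : ((γ 1 0 : ℤ) : ZMod N) = 0 := Gamma0_mem.mp hγ0
  have hd : ((γ 1 1 : ℤ) : ZMod N) = 1 := hγ1
  set a := γ 0 0
  set b := γ 0 1
  set c := γ 1 0
  set d := γ 1 1
  have hdet3 : (p * a) * z - (b - j' * a) * c = 1 := by
    linear_combination hdet - a * hz
  have hg3 : sl (p * a) (b - j' * a) c z hdet3 ∈ Gamma0 N := by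
    rw [Gamma0_mem]; simpa using hc
  have hpz : (p : ZMod N) * (z : ZMod N) = 1 := by
    have : (((d - j' * c : ℤ)) : ZMod N) = ((p * z : ℤ) : ZMod N) := by rw [hz]
    push_cast at this
    rw [hc, hd] at this
    rw [← this]; ring
  have hprod : dd N (γp * sl (p * a) (b - j' * a) c z hdet3) = 1 := by
    rw [dd_mul hγp, hdp]
    simpa [dd] using hpz
  have hpne : (1 : ℤ) * (p : ℤ) - j' * 0 ≠ 0 := by simp; exact hp.ne'
  have hpne' : ((p : ℤ)) * 1 - 0 * 0 ≠ 0 := by simp; exact hp.ne'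
  rw [slash_gl_SL _ γ hpne']
  conv_rhs => rw [← hF.slash_eq_self_of_dd ((Gamma0 N).mul_mem hγp hg3) hprod,
    SlashAction.slash_mul, slash_SL_gl _ _ hpne]
  simp only [sl_00, sl_01, sl_10, sl_11]
  apply slash_gl_congr
  · ring
  · ring
  · ring
  · linear_combination hz

/-- Case (d): `α γ ∈ Γ₁(N) α` when `p ∣ c`. -/
lemma slash_alpha_gamma_infty (hp : 0 < p) (hpN : Nat.Coprime p N) {F : ℍ → ℂ}
    (hF : Inv1 N k F) {γ : SL(2, ℤ)}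
    (hγ : γ ∈ Gamma1 N) (hdiv : (p : ℤ) ∣ γ 1 0) :
    (F ∣[k] gl p 0 0 1) ∣[k] γ = F ∣[k] gl p 0 0 1 := by
  obtain ⟨c', hc'⟩ := hdiv
  have hdet := SL_det_eq γ
  obtain ⟨hγ0, hγ1⟩ := mem_Gamma1_iff.mp hγ
  have hc : ((γ 1 0 : ℤ) : ZMod N) = 0 := Gamma0_mem.mp hγ0
  have hd : ((γ 1 1 : ℤ) : ZMod N) = 1 := hγ1
  set a := γ 0 0
  set b := γ 0 1
  set c := γ 1 0
  set d := γ 1 1
  have hdet2 : a * d - (p * b) * c' = 1 := by
    linear_combination hdet + b * hc'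
  have hunit : IsUnit ((p : ℕ) : ZMod N) := (ZMod.isUnit_iff_coprime p N).mpr hpN
  have hc'0 : ((c' : ℤ) : ZMod N) = 0 := by
    have : ((p * c' : ℤ) : ZMod N) = 0 := by rw [← hc', hc]
    push_cast at this
    exact (hunit.mul_right_eq_zero).mp this
  have hg2 : sl a (p * b) c' d hdet2 ∈ Gamma1 N := by
    rw [mem_Gamma1_iff, Gamma0_mem]
    exact ⟨by simpa using hc'0, by simpa [dd] using hd⟩
  have hpne' : ((p : ℤ)) * 1 - 0 * 0 ≠ 0 := by simp; exact hp.ne'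
  rw [slash_gl_SL _ γ hpne']
  conv_rhs => rw [← hF _ hg2, slash_SL_gl _ _ hpne']
  simp only [sl_00, sl_01, sl_10, sl_11]
  apply slash_gl_congr
  · ring
  · ring
  · linear_combination hc'
  · ring

end

end Fermat.Agent.S48.H188
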