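import Fermat.Agent.S48.H188.Mat

set_option autoImplicit false

open scoped MatrixGroups ModularForm
open UpperHalfPlane CongruenceSubgroup Matrix

namespace Fermat.Agent.S48.H188

noncomputable section

variable {k : ℤ} {N : ℕ}

/-- `F` is invariant under `Γ₁(N)` in weight `k`. -/
def Inv1 (N : ℕ) (k : ℤ) (F : ℍ → ℂ) : Prop := ∀ γ ∈ Gamma1 N, F ∣[k] γ = F

/-- Value of the character `Γ₀(N) → (ℤ/N)ˣ`, `γ ↦ d`. -/
def dd (N : ℕ) (g : SL(2, ℤ)) : ZMod N := ((g 1 1 : ℤ) : ZMod N)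

lemma dd_mul {g g' : SL(2, ℤ)} (hg : g ∈ Gamma0 N) :
    dd N (g * g') = dd N g * dd N g' := by
  have h := (Matrix.two_mul_expl g.1 g'.1).2.2.2
  have hc : ((g 1 0 : ℤ) : ZMod N) = 0 := Gamma0_mem.mp hg
  simp only [dd, Matrix.SpecialLinearGroup.coe_mul]
  rw [h]
  push_cast
  rw [hc]; ring

lemma dd_one : dd N (1 : SL(2, ℤ)) = 1 := by simp [dd]

lemma dd_inv_mul {g : SL(2, ℤ)} (hg : g ∈ Gamma0 N) : dd N g⁻¹ * dd N g = 1 := by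
  rw [← dd_mul ((Gamma0 N).inv_mem hg), inv_mul_cancel, dd_one]

lemma dd_mul_inv {g : SL(2, ℤ)} (hg : g ∈ Gamma0 N) : dd N g * dd N g⁻¹ = 1 := by
  rw [mul_comm, dd_inv_mul hg]

lemma mem_Gamma1_iff {g : SL(2, ℤ)} : g ∈ Gamma1 N ↔ g ∈ Gamma0 N ∧ dd N g = 1 := by
  rw [Gamma1_mem, Gamma0_mem]
  constructor
  · rintro ⟨-, h2, h3⟩; exact ⟨h3, h2⟩
  · rintro ⟨h3, h2⟩
    refine ⟨?_, h2, h3⟩
    have hdet := SL_det_eq g
    have : (((g 0 0) * (g 1 1) - (g 0 1) * (g 1 0) : ℤ) : ZMod N) = 1 := by rw [hdet]; simp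
    push_cast at this
    rw [h3] at this
    have h2' : ((g 1 1 : ℤ) : ZMod N) = 1 := h2
    rw [h2'] at this
    simpa using this

lemma dd_pow {g : SL(2, ℤ)} (hg : g ∈ Gamma0 N) (n : ℕ) : dd N (g ^ n) = dd N g ^ n := by
  induction n with
  | zero => simp [dd_one]
  | succ n ih => rw [pow_succ, dd_mul ((Gamma0 N).pow_mem hg n), ih, pow_succ]

/-- The diamond operator is well defined. -/
lemma Inv1.slash_eq_of_dd_eq {F : ℍ → ℂ} (hF : Inv1 N k F) {g g' : SL(2, ℤ)}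
    (hg : g ∈ Gamma0 N) (hg' : g' ∈ Gamma0 N) (h : dd N g = dd N g') :
    F ∣[k] g = F ∣[k] g' := by
  have hmem : g' * g⁻¹ ∈ Gamma1 N := by
    rw [mem_Gamma1_iff]
    refine ⟨(Gamma0 N).mul_mem hg' ((Gamma0 N).inv_mem hg), ?_⟩
    rw [dd_mul hg', ← h, dd_mul_inv hg]
  have : g' = (g' * g⁻¹) * g := by group
  rw [this, SlashAction.slash_mul, hF _ hmem]

/-- `Γ₁(N)` is normal in `Γ₀(N)`. -/
lemma conj_mem_Gamma1 {g γ : SL(2, ℤ)} (hg : g ∈ Gamma0 N) (hγ : γ ∈ Gamma1 N) :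
    g * γ * g⁻¹ ∈ Gamma1 N := by
  rw [mem_Gamma1_iff] at hγ ⊢
  refine ⟨(Gamma0 N).mul_mem ((Gamma0 N).mul_mem hg hγ.1) ((Gamma0 N).inv_mem hg), ?_⟩
  rw [dd_mul ((Gamma0 N).mul_mem hg hγ.1), dd_mul hg, hγ.2, mul_one, dd_mul_inv hg]

lemma Inv1.slash {F : ℍ → ℂ} (hF : Inv1 N k F) {g : SL(2, ℤ)} (hg : g ∈ Gamma0 N) :
    Inv1 N k (F ∣[k] g) := by
  intro γ hγ
  have : g * γ = (g * γ * g⁻¹) * g := by group
  rw [← SlashAction.slash_mul, this, SlashAction.slash_mul, hF _ (conj_mem_Gamma1 hg hγ)]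

lemma Inv1.slash_eq_self_of_dd {F : ℍ → ℂ} (hF : Inv1 N k F) {g : SL(2, ℤ)}
    (hg : g ∈ Gamma0 N) (h : dd N g = 1) : F ∣[k] g = F :=
  hF g (mem_Gamma1_iff.mpr ⟨hg, h⟩)

lemma Inv1.add {F G : ℍ → ℂ} (hF : Inv1 N k F) (hG : Inv1 N k G) : Inv1 N k (F + G) := by
  intro γ hγ
  rw [SlashAction.add_slash, hF γ hγ, hG γ hγ]

lemma Inv1.smul {F : ℍ → ℂ} (hF : Inv1 N k F) (c : ℂ) : Inv1 N k (c • F) := by
  intro γ hγ
  rw [ModularForm.SL_smul_slash, hF γ hγ]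

lemma Inv1.sub {F G : ℍ → ℂ} (hF : Inv1 N k F) (hG : Inv1 N k G) : Inv1 N k (F - G) := by
  intro γ hγ
  rw [sub_eq_add_neg, SlashAction.add_slash, SlashAction.neg_slash, hF γ hγ, hG γ hγ]

end

end Fermat.Agent.S48.H188
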