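import Fermat.Agent.S48.H188.Cosets

set_option autoImplicit false

open scoped MatrixGroups ModularForm
open UpperHalfPlane CongruenceSubgroup Matrix

namespace Fermat.Agent.S48.H188

noncomputable section

variable {k : ℤ} {N : ℕ} (p : ℕ) [hpf : Fact p.Prime]

/-- The matrix `(d b; c a)` mod `p` attached to `γ = (a b; c d)`; its Möbius action on
`ℙ¹(𝔽_p)` is the permutation of the cosets `Γ₁(N)\Γ₁(N)(1 0; 0 p)Γ₁(N)` induced by right
multiplication by `γ`. -/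
def gmod (γ : SL(2, ℤ)) : GL (Fin 2) (ZMod p) :=
  Matrix.GeneralLinearGroup.mkOfDetNeZero
    !![((γ 1 1 : ℤ) : ZMod p), ((γ 0 1 : ℤ) : ZMod p); ((γ 1 0 : ℤ) : ZMod p), ((γ 0 0 : ℤ) : ZMod p)]
    (by
      rw [Matrix.det_fin_two_of]
      have h := SL_det_eq γ
      have : (((γ 0 0) * (γ 1 1) - (γ 0 1) * (γ 1 0) : ℤ) : ZMod p) = 1 := by rw [h]; simp
      push_cast at this
      rw [show ((γ 1 1 : ℤ) : ZMod p) * ((γ 0 0 : ℤ) : ZMod p) - ((γ 0 1 : ℤ) : ZMod p) * ((γ 1 0 : ℤ) : ZMod p)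
        = 1 by rw [← this]; ring]
      exact one_ne_zero)

@[simp] lemma gmod_00 (γ : SL(2, ℤ)) : (gmod p γ) 0 0 = ((γ 1 1 : ℤ) : ZMod p) := rfl
@[simp] lemma gmod_01 (γ : SL(2, ℤ)) : (gmod p γ) 0 1 = ((γ 0 1 : ℤ) : ZMod p) := rfl
@[simp] lemma gmod_10 (γ : SL(2, ℤ)) : (gmod p γ) 1 0 = ((γ 1 0 : ℤ) : ZMod p) := rfl
@[simp] lemma gmod_11 (γ : SL(2, ℤ)) : (gmod p γ) 1 1 = ((γ 0 0 : ℤ) : ZMod p) := rfl

/-- The `p + 1` translates of `F` whose sum is `T_p F`. -/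
def heckeFam (k : ℤ) (γp : SL(2, ℤ)) (F : ℍ → ℂ) (i : OnePoint (ZMod p)) : ℍ → ℂ :=
  Option.elim (i : Option (ZMod p)) ((F ∣[k] γp) ∣[k] gl p 0 0 1)
    (fun j => F ∣[k] gl 1 (j.val : ℤ) 0 p)

omit hpf in
@[simp] lemma heckeFam_infty (γp : SL(2, ℤ)) (F : ℍ → ℂ) :
    heckeFam p k γp F OnePoint.infty = (F ∣[k] γp) ∣[k] gl p 0 0 1 := rfl

omit hpf in
@[simp] lemma heckeFam_coe (γp : SL(2, ℤ)) (F : ℍ → ℂ) (j : ZMod p) :
    heckeFam p k γp F (j : OnePoint (ZMod p)) = F ∣[k] gl 1 (j.val : ℤ) 0 p := rfl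

lemma intCast_val_zmod (j : ZMod p) : ((j.val : ℕ) : ZMod p) = j := by
  have : NeZero p := ⟨hpf.out.ne_zero⟩
  simp

lemma gmod_smul_infty (γ : SL(2, ℤ)) :
    gmod p γ • (OnePoint.infty : OnePoint (ZMod p)) =
      if ((γ 1 0 : ℤ) : ZMod p) = 0 then OnePoint.infty
      else ((((γ 1 1 : ℤ) : ZMod p) / ((γ 1 0 : ℤ) : ZMod p) : ZMod p) : OnePoint (ZMod p)) :=
  OnePoint.smul_infty_eq_ite _

lemma gmod_smul_coe (γ : SL(2, ℤ)) (j : ZMod p) :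
    gmod p γ • (j : OnePoint (ZMod p)) =
      if ((γ 1 0 : ℤ) : ZMod p) * j + ((γ 0 0 : ℤ) : ZMod p) = 0 then OnePoint.infty
      else (((((γ 1 1 : ℤ) : ZMod p) * j + ((γ 0 1 : ℤ) : ZMod p)) /
        (((γ 1 0 : ℤ) : ZMod p) * j + ((γ 0 0 : ℤ) : ZMod p)) : ZMod p) : OnePoint (ZMod p)) :=
  OnePoint.smul_some_eq_ite

/-- Right translation by `γ ∈ Γ₁(N)` permutes the family `heckeFam`. -/
lemma heckeFam_slash (hpN : Nat.Coprime p N) {F : ℍ → ℂ} (hF : Inv1 N k F)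
    {γp : SL(2, ℤ)} (hγp : γp ∈ Gamma0 N) (hdp : dd N γp = (p : ZMod N))
    {γ : SL(2, ℤ)} (hγ : γ ∈ Gamma1 N) (i : OnePoint (ZMod p)) :
    (heckeFam p k γp F i) ∣[k] γ = heckeFam p k γp F (gmod p γ • i) := by
  have hp : 0 < p := hpf.out.pos
  induction i using OnePoint.rec with
  | infty =>
    rw [gmod_smul_infty]
    by_cases hc : ((γ 1 0 : ℤ) : ZMod p) = 0
    · rw [if_pos hc, heckeFam_infty]
      exact slash_alpha_gamma_infty hp hpN (hF.slash hγp) hγ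
        ((ZMod.intCast_zmod_eq_zero_iff_dvd _ p).mp hc)
    · rw [if_neg hc, heckeFam_infty, heckeFam_coe]
      apply slash_alpha_gamma_finite hp hF hγ hγp hdp
      rw [← ZMod.intCast_zmod_eq_zero_iff_dvd]
      push_cast
      rw [intCast_val_zmod, div_mul_cancel₀ _ hc, sub_self]
  | coe j =>
    rw [gmod_smul_coe]
    by_cases hc : ((γ 1 0 : ℤ) : ZMod p) * j + ((γ 0 0 : ℤ) : ZMod p) = 0
    · rw [if_pos hc, heckeFam_infty, heckeFam_coe]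
      apply slash_beta_gamma_infty hp hF hγ hγp hdp
      rw [← ZMod.intCast_zmod_eq_zero_iff_dvd]
      push_cast
      rw [intCast_val_zmod, ← hc]; ring
    · rw [if_neg hc, heckeFam_coe, heckeFam_coe]
      apply slash_beta_gamma_finite hp hF hγ
      rw [← ZMod.intCast_zmod_eq_zero_iff_dvd]
      push_cast
      rw [intCast_val_zmod, intCast_val_zmod]
      have := div_mul_cancel₀ (((γ 1 1 : ℤ) : ZMod p) * j + ((γ 0 1 : ℤ) : ZMod p)) hc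
      linear_combination -this

/-- The Hecke operator `T_p` on `Γ₁(N)`-invariant functions (normalised as in the classical
theory: `T_p F = ∑_j F∣(1 j; 0 p) + (⟨p⟩F)∣(p 0; 0 1)`). -/
def heckeT (k : ℤ) (γp : SL(2, ℤ)) (F : ℍ → ℂ) : ℍ → ℂ :=
  ∑ i : OnePoint (ZMod p), heckeFam p k γp F i

lemma heckeT_eq (γp : SL(2, ℤ)) (F : ℍ → ℂ) :
    heckeT p k γp F =
      (F ∣[k] γp) ∣[k] gl p 0 0 1 + ∑ j : ZMod p, F ∣[k] gl 1 (j.val : ℤ) 0 p := by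
  unfold heckeT
  exact Fintype.sum_option (heckeFam p k γp F)

/-- `T_p` preserves `Γ₁(N)`-invariance. -/
theorem heckeT_inv (hpN : Nat.Coprime p N) {F : ℍ → ℂ} (hF : Inv1 N k F)
    {γp : SL(2, ℤ)} (hγp : γp ∈ Gamma0 N) (hdp : dd N γp = (p : ZMod N)) :
    Inv1 N k (heckeT p k γp F) := by
  intro γ hγ
  unfold heckeT
  rw [ModularForm.SL_slash, SlashAction.sum_slash]
  simp_rw [← ModularForm.SL_slash]
  simp_rw [heckeFam_slash p hpN hF hγp hdp hγ]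
  exact Equiv.sum_comp (MulAction.toPerm (gmod p γ)) (heckeFam p k γp F)

end

end Fermat.Agent.S48.H188
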