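import Fermat.Agent.S48.H188.LemmaX

set_option autoImplicit false

open scoped MatrixGroups ModularForm
open UpperHalfPlane CongruenceSubgroup Matrix

namespace Fermat.Agent.S48.H188

noncomputable section

variable {k : ℤ} {N : ℕ} {p : ℕ}

/-- Closure of `Inv2` under the diamond operator attached to a matrix `(a pb; c d)`. -/
lemma Inv2.slash (hp : 0 < p) {h : ℍ → ℂ} (hh : Inv2 N p k h) {a b c d : ℤ}
    (hdet : a * d - (p * b) * c = 1) (hc : ((c : ℤ) : ZMod N) = 0) :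
    Inv2 N p k (h ∣[k] sl a (p * b) c d hdet) := by
  have hg : sl a (p * b) c d hdet ∈ Gamma0 N := by
    rw [Gamma0_mem]; simpa using hc
  have hdet' : a * d - b * (p * c) = 1 := by linear_combination hdet
  have hg' : sl a b (p * c) d hdet' ∈ Gamma0 N := by
    rw [Gamma0_mem]; simp only [sl_10]; push_cast; rw [hc, mul_zero]
  refine ⟨hh.1.slash hg, ?_⟩
  have hpne' : ((p : ℤ)) * 1 - 0 * 0 ≠ 0 := by simp; exact hp.ne'
  have : (h ∣[k] sl a (p * b) c d hdet) ∣[k] gl p 0 0 1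
      = (h ∣[k] gl p 0 0 1) ∣[k] sl a b (p * c) d hdet' := by
    rw [slash_SL_gl _ _ hpne', slash_gl_SL _ _ hpne']
    simp only [sl_00, sl_01, sl_10, sl_11]
    apply slash_gl_congr <;> ring
  rw [this]
  exact hh.2.slash hg'

/-- Existence of a matrix `(a pb; c d) ∈ Γ₀(N)` with `p d ≡ 1 mod N`. -/
lemma exists_ghat (hpN : Nat.Coprime p N) :
    ∃ a b c d : ℤ, a * d - (p * b) * c = 1 ∧ ((c : ℤ) : ZMod N) = 0 ∧
      (p : ZMod N) * ((d : ℤ) : ZMod N) = 1 := by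
  obtain ⟨u, v, huv⟩ : IsCoprime (p : ℤ) (N : ℤ) := Nat.isCoprime_iff_coprime.mpr hpN
  set d : ℤ := u ^ 2 * p + v * N with hd
  have h1 : IsCoprime d (p : ℤ) := ⟨1, -(u ^ 2 - u), by rw [hd]; linear_combination huv⟩
  have h2 : IsCoprime d (N : ℤ) :=
    ⟨p, 2 * v - v ^ 2 * N - v * p, by rw [hd]; linear_combination (u * p - v * N + 1) * huv⟩
  obtain ⟨a, b', hab⟩ := h1.mul_right h2
  refine ⟨a, -b', N, d, by linear_combination hab, by simp, ?_⟩
  have : ((u * p + v * N : ℤ) : ZMod N) = 1 := by rw [huv]; simp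
  push_cast at this
  simp only [CharP.cast_eq_zero, mul_zero, add_zero] at this
  rw [hd]; push_cast
  simp only [CharP.cast_eq_zero, mul_zero, add_zero]
  linear_combination ((u : ZMod N) * p + 1) * this

end

end Fermat.Agent.S48.H188

namespace Fermat.Agent.S48.H188

noncomputable section

open Filter Asymptotics

variable {k : ℤ} {N : ℕ} {p : ℕ}

/-- The point `n τ` of the upper half plane. -/
def scalePt (n : ℕ) (hn : 0 < n) (τ : ℍ) : ℍ :=
  ⟨(n : ℂ) * τ, by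
    have : ((n : ℂ) * τ).im = n * τ.im := by simp
    rw [this]; exact mul_pos (by exact_mod_cast hn) τ.im_pos⟩

lemma coe_scalePt (n : ℕ) (hn : 0 < n) (τ : ℍ) : ((scalePt n hn τ : ℍ) : ℂ) = (n : ℂ) * τ := rfl

lemma im_scalePt (n : ℕ) (hn : 0 < n) (τ : ℍ) : (scalePt n hn τ).im = n * τ.im := by
  change ((n : ℂ) * τ).im = _
  simp

/-- Iterating Lemma X. -/
lemma Inv2.iterate (hp : 0 < p) (hpN : Nat.Coprime p N) {h : ℍ → ℂ} (hh : Inv2 N p k h)
    {a b c d : ℤ} (hdet : a * d - (p * b) * c = 1) (hc : ((c : ℤ) : ZMod N) = 0)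
    (hpd : (p : ZMod N) * ((d : ℤ) : ZMod N) = 1) (i : ℕ) :
    Inv2 N p k (h ∣[k] ((sl a (p * b) c d hdet) ^ i)) ∧
    ∀ w w' : ℍ, (w' : ℂ) = (p : ℂ) ^ (2 * i) * w →
      (h ∣[k] ((sl a (p * b) c d hdet) ^ i)) w = ((p : ℂ) ^ k) ^ i * h w' := by
  have hg : sl a (p * b) c d hdet ∈ Gamma0 N := by
    rw [Gamma0_mem]; simpa using hc
  induction i with
  | zero =>
    refine ⟨by simpa using hh, ?_⟩
    intro w w' hw
    have : w' = w := by
      apply UpperHalfPlane.ext; rw [hw]; simp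
    simp [this]
  | succ i ih =>
    obtain ⟨ih1, ih2⟩ := ih
    have hstep : h ∣[k] ((sl a (p * b) c d hdet) ^ (i + 1))
        = (h ∣[k] ((sl a (p * b) c d hdet) ^ i)) ∣[k] (sl a (p * b) c d hdet) := by
      rw [pow_succ, SlashAction.slash_mul]
    rw [hstep]
    refine ⟨ih1.slash hp hdet hc, ?_⟩
    intro w w' hw
    have hp2 : 0 < p ^ 2 := pow_pos hp 2
    have hw1 : ((scalePt (p ^ 2) hp2 w : ℍ) : ℂ) = (p : ℂ) ^ 2 * w := by
      rw [coe_scalePt]; push_cast; rfl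
    rw [ih1.slash_apply hp hpN hg (by simpa [dd] using hpd) w _ hw1,
      ih2 (scalePt (p ^ 2) hp2 w) w' (by rw [hw, hw1]; ring)]
    ring

/-- If `h` and `h∣(p 0; 0 1)` are `Γ₁(N)`-invariant then `h(w) = p^{km} h(p^{2m} w)` with
`m = φ(N)`. -/
lemma Inv2.scaling [NeZero N] (hp : 0 < p) (hpN : Nat.Coprime p N) {h : ℍ → ℂ}
    (hh : Inv2 N p k h) (w w' : ℍ) (hw : (w' : ℂ) = ((p ^ (2 * N.totient) : ℕ) : ℂ) * w) :
    h w = ((p : ℂ) ^ k) ^ N.totient * h w' := by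
  obtain ⟨a, b, c, d, hdet, hc, hpd⟩ := exists_ghat (N := N) hpN
  have hg : sl a (p * b) c d hdet ∈ Gamma0 N := by
    rw [Gamma0_mem]; simpa using hc
  obtain ⟨-, h2⟩ := hh.iterate hp hpN hdet hc hpd N.totient
  have hmem : (sl a (p * b) c d hdet) ^ N.totient ∈ Gamma1 N := by
    rw [mem_Gamma1_iff]
    refine ⟨(Gamma0 N).pow_mem hg _, ?_⟩
    rw [dd_pow hg]
    simp only [dd, sl_11]
    have hu : IsUnit ((d : ℤ) : ZMod N) := .of_mul_eq_one_right _ hpd
    obtain ⟨x, hx⟩ := hu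
    rw [← hx, ← Units.val_pow_eq_pow_val, ZMod.pow_totient, Units.val_one]
  have := h2 w w' (by rw [hw]; push_cast; rfl)
  rwa [hh.1 _ hmem] at this

end

end Fermat.Agent.S48.H188
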