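import Fermat.Agent.S48.H188.HeckeT

set_option autoImplicit false

open scoped MatrixGroups ModularForm
open UpperHalfPlane CongruenceSubgroup Matrix

namespace Fermat.Agent.S48.H188

noncomputable section

variable {k : ℤ} {N : ℕ} {p : ℕ}

/-- A `Γ₁(N)`-invariant function is `1`-periodic. -/
lemma Inv1.periodic {F : ℍ → ℂ} (hF : Inv1 N k F) (σ σ' : ℍ) (n : ℤ)
    (h : (σ' : ℂ) = σ + n) : F σ' = F σ := by
  have hT : sl 1 n 0 1 (by ring) ∈ Gamma1 N := by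
    rw [mem_Gamma1_iff, Gamma0_mem]
    simp [dd]
  have h1 := congrFun (hF _ hT) σ
  rw [slash_SL_eq_gl] at h1
  simp only [sl_00, sl_01, sl_10, sl_11] at h1
  rw [slash_gl_upper_apply F one_pos one_pos] at h1
  have h2 : gl 1 n 0 1 • σ = σ' := by
    apply UpperHalfPlane.ext
    rw [coe_gl_upper_smul one_pos one_pos, h]
    push_cast; ring
  rw [h2] at h1
  simpa using h1

/-- The class of functions to which the vanishing lemma applies: `h` and `h∣(p 0; 0 1)` are both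
`Γ₁(N)`-invariant. -/
def Inv2 (N : ℕ) (p : ℕ) (k : ℤ) (h : ℍ → ℂ) : Prop :=
  Inv1 N k h ∧ Inv1 N k (h ∣[k] gl p 0 0 1)

/-- **Lemma X.**  If `h` and `h∣(p 0; 0 1)` are `Γ₁(N)`-invariant and `g ∈ Γ₀(N)` has
`p · d_g ≡ 1 mod N`, then `(h∣g)(w) = p^k h(p² w)`. -/
lemma Inv2.slash_apply (hp : 0 < p) (hpN : Nat.Coprime p N) {h : ℍ → ℂ} (hh : Inv2 N p k h)
    {g : SL(2, ℤ)} (hg : g ∈ Gamma0 N) (hdg : (p : ZMod N) * dd N g = 1)
    (w w' : ℍ) (hw : (w' : ℂ) = (p : ℂ) ^ 2 * w) :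
    (h ∣[k] g) w = (p : ℂ) ^ k * h w' := by
  obtain ⟨u, v, huv⟩ : IsCoprime (p : ℤ) (N : ℤ) := Nat.isCoprime_iff_coprime.mpr hpN
  -- `j₁ = v`, `z = u`
  have hdet0 : (p : ℤ) * u - (-v) * N = 1 := by linear_combination huv
  have hg0 : sl p (-v) N u hdet0 ∈ Gamma0 N := by
    rw [Gamma0_mem]; simp
  have hpu : (p : ZMod N) * (u : ZMod N) = 1 := by
    have : ((u * p + v * N : ℤ) : ZMod N) = 1 := by rw [huv]; simp
    push_cast at this
    rw [← this]; simp [mul_comm]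
  have hdd : dd N (sl p (-v) N u hdet0) = dd N g := by
    simp only [dd, sl_11]
    have h1 : dd N g = dd N g * ((p : ZMod N) * (u : ZMod N)) := by rw [hpu, mul_one]
    have h2 : (u : ZMod N) = (u : ZMod N) * ((p : ZMod N) * dd N g) := by rw [hdg, mul_one]
    rw [dd] at h1 h2
    rw [h2]
    conv_rhs => rw [h1]
    ring
  have hL : sl 1 0 N 1 (by ring) ∈ Gamma1 N := by
    rw [mem_Gamma1_iff, Gamma0_mem]
    simp [dd]
  have hpne : (1 : ℤ) * (p : ℤ) - v * 0 ≠ 0 := by simp; exact hp.ne'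
  have hpne' : ((p : ℤ)) * 1 - 0 * 0 ≠ 0 := by simp; exact hp.ne'
  have hpC : (p : ℂ) ≠ 0 := by exact_mod_cast hp.ne'
  have hp' : (0 : ℤ) < p := by exact_mod_cast hp
  -- the key identity of slash operators
  have key : h ∣[k] gl p 0 0 1 = (h ∣[k] g) ∣[k] gl 1 v 0 p := by
    rw [← hh.1.slash_eq_of_dd_eq hg0 hg hdd, slash_SL_gl _ _ hpne]
    conv_lhs => rw [← hh.2 _ hL, slash_gl_SL _ _ hpne']
    simp only [sl_00, sl_01, sl_10, sl_11]
    apply slash_gl_congr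
    · ring
    · ring
    · ring
    · linear_combination -huv
  -- evaluate at `τ = p w - v`
  have him : 0 < ((p : ℂ) * w - v).im := by
    have : ((p : ℂ) * w - v).im = p * w.im := by simp
    rw [this]
    exact mul_pos (by exact_mod_cast hp) w.im_pos
  set τ : ℍ := ⟨(p : ℂ) * w - v, him⟩ with hτ
  have hτc : (τ : ℂ) = (p : ℂ) * w - v := rfl
  have e1 : gl 1 v 0 p • τ = w := by
    apply UpperHalfPlane.ext
    rw [coe_gl_upper_smul one_pos hp', hτc]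
    push_cast
    field_simp
    ring
  have e2 : ((gl p 0 0 1 • τ : ℍ) : ℂ) = w' + ((-(p * v) : ℤ) : ℂ) := by
    rw [coe_gl_upper_smul hp' one_pos, hτc, hw]
    push_cast
    ring
  have e3 : h (gl p 0 0 1 • τ) = h w' := hh.1.periodic _ _ _ e2
  have := congrFun key τ
  rw [slash_gl_upper_apply _ hp' one_pos, slash_gl_upper_apply _ one_pos hp', e1, e3] at this
  -- `h w' * p^(k-1) * 1 = (h∣g) w * p^(k-1) * p^(-k)`
  have hpk : ((p : ℂ) * ((1 : ℤ) : ℂ)) ^ (k - 1) ≠ 0 := by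
    apply zpow_ne_zero; simpa using hpC
  have hpk' : (((1 : ℤ) : ℂ) * (p : ℂ)) ^ (k - 1) = ((p : ℂ) * ((1 : ℤ) : ℂ)) ^ (k - 1) := by
    rw [mul_comm]
  simp only [Int.cast_natCast] at this hpk hpk'
  rw [hpk'] at this
  have h3 : h w' * ((1 : ℤ) : ℂ) ^ (-k) = (h ∣[k] g) w * (p : ℂ) ^ (-k) := by
    have h4 : (h w' * ((1 : ℤ) : ℂ) ^ (-k)) * ((p : ℂ) * ((1 : ℤ) : ℂ)) ^ (k - 1)
        = ((h ∣[k] g) w * (p : ℂ) ^ (-k)) * ((p : ℂ) * ((1 : ℤ) : ℂ)) ^ (k - 1) := by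
      linear_combination this
    exact mul_right_cancel₀ hpk h4
  rw [Int.cast_one, _root_.one_zpow, mul_one] at h3
  rw [h3, mul_comm, mul_assoc, ← zpow_add₀ hpC]
  simp

end

end Fermat.Agent.S48.H188
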