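import Fermat.Agent.S48.H188.Iterate

set_option autoImplicit false

open scoped MatrixGroups ModularForm
open UpperHalfPlane CongruenceSubgroup Matrix Filter Asymptotics

namespace Fermat.Agent.S48.H188

noncomputable section

/-- **Lemma Y.**  A function on `ℍ` with exponential decay at `i∞` satisfying
`h(w) = c · h(M w)` for some integer `M ≥ 2` vanishes identically. -/
theorem eq_zero_of_scaling {h : ℍ → ℂ} {c : ℂ} {M : ℕ} (hM : 2 ≤ M) {a : ℝ} (ha : 0 < a)
    (hscale : ∀ w w' : ℍ, (w' : ℂ) = (M : ℂ) * w → h w = c * h w')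
    (hdecay : h =O[atImInfty] fun τ => Real.exp (-a * τ.im)) : h = 0 := by
  have hM0 : 0 < M := by omega
  have hM1 : (1 : ℝ) ≤ M - 1 := by
    have : (2 : ℝ) ≤ M := by exact_mod_cast hM
    linarith
  obtain ⟨K, hK⟩ := hdecay.bound
  obtain ⟨A, hA⟩ := (atImInfty_basis.eventually_iff).mp hK
  replace hA := hA.2
  -- choose `y₀`
  set B : ℝ := Real.log (2 * (‖c‖ + 1)) / (a * (M - 1)) with hB
  set y₀ : ℝ := max A B with hy₀
  have hden : 0 < a * ((M : ℝ) - 1) := mul_pos ha (by linarith)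
  have hsmall : ‖c‖ * Real.exp (-a * ((M : ℝ) - 1) * y₀) ≤ 1 / 2 := by
    have h1 : Real.log (2 * (‖c‖ + 1)) ≤ a * ((M : ℝ) - 1) * y₀ := by
      have : B ≤ y₀ := le_max_right _ _
      rw [hB, div_le_iff₀ hden] at this
      linarith
    have h2 : Real.exp (-a * ((M : ℝ) - 1) * y₀) ≤ 1 / (2 * (‖c‖ + 1)) := by
      have hpos : 0 < 2 * (‖c‖ + 1) := by positivity
      rw [show -a * ((M : ℝ) - 1) * y₀ = -(a * ((M : ℝ) - 1) * y₀) by ring, Real.exp_neg,
        one_div]
      apply inv_anti₀ hpos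
      calc 2 * (‖c‖ + 1) = Real.exp (Real.log (2 * (‖c‖ + 1))) := (Real.exp_log hpos).symm
        _ ≤ _ := Real.exp_le_exp.mpr h1
    calc ‖c‖ * Real.exp (-a * ((M : ℝ) - 1) * y₀) ≤ ‖c‖ * (1 / (2 * (‖c‖ + 1))) :=
          mul_le_mul_of_nonneg_left h2 (norm_nonneg _)
      _ ≤ 1 / 2 := by
          rw [mul_one_div, div_le_div_iff₀ (by positivity) (by norm_num)]
          nlinarith [norm_nonneg c]
  set K' : ℝ := max K 0 with hK'
  have hK'0 : 0 ≤ K' := le_max_right _ _
  -- Claim 1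
  have claim1 : ∀ n : ℕ, ∀ τ : ℍ, y₀ ≤ τ.im →
      ‖h τ‖ ≤ (1 / 2 : ℝ) ^ n * (K' * Real.exp (-a * τ.im)) := by
    intro n
    induction n with
    | zero =>
      intro τ hτ
      have := @hA τ (le_trans (le_max_left _ _) hτ)
      rw [Real.norm_of_nonneg (Real.exp_pos _).le] at this
      simp only [pow_zero, one_mul]
      exact this.trans (mul_le_mul_of_nonneg_right (le_max_left _ _) (Real.exp_pos _).le)
    | succ n ih =>
      intro τ hτ
      have hτ' : y₀ ≤ (scalePt M hM0 τ).im := by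
        rw [im_scalePt]
        have : (1 : ℝ) ≤ M := by exact_mod_cast hM0
        nlinarith [τ.im_pos]
      rw [hscale τ (scalePt M hM0 τ) (coe_scalePt _ _ _), norm_mul]
      have h1 := ih _ hτ'
      rw [im_scalePt] at h1
      have h2 : Real.exp (-a * (M * τ.im)) =
          Real.exp (-a * τ.im) * Real.exp (-a * ((M : ℝ) - 1) * τ.im) := by
        rw [← Real.exp_add]; congr 1; ring
      have h3 : Real.exp (-a * ((M : ℝ) - 1) * τ.im) ≤ Real.exp (-a * ((M : ℝ) - 1) * y₀) := by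
        apply Real.exp_le_exp.mpr
        have : a * ((M : ℝ) - 1) * y₀ ≤ a * ((M : ℝ) - 1) * τ.im :=
          mul_le_mul_of_nonneg_left hτ hden.le
        linarith
      rw [h2] at h1
      have hE : 0 ≤ Real.exp (-a * τ.im) := (Real.exp_pos _).le
      have hE2 : 0 ≤ Real.exp (-a * ((M : ℝ) - 1) * τ.im) := (Real.exp_pos _).le
      have hpow : (0 : ℝ) ≤ (1 / 2) ^ n := by positivity
      calc ‖c‖ * ‖h (scalePt M hM0 τ)‖
          ≤ ‖c‖ * ((1 / 2) ^ n * (K' * (Real.exp (-a * τ.im) *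
              Real.exp (-a * ((M : ℝ) - 1) * τ.im)))) :=
            mul_le_mul_of_nonneg_left h1 (norm_nonneg _)
        _ = ((1 / 2) ^ n * (K' * Real.exp (-a * τ.im))) *
              (‖c‖ * Real.exp (-a * ((M : ℝ) - 1) * τ.im)) := by ring
        _ ≤ ((1 / 2) ^ n * (K' * Real.exp (-a * τ.im))) * (1 / 2) := by
            apply mul_le_mul_of_nonneg_left _ (by positivity)
            exact (mul_le_mul_of_nonneg_left h3 (norm_nonneg _)).trans hsmall
        _ = (1 / 2) ^ (n + 1) * (K' * Real.exp (-a * τ.im)) := by ring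
  -- Claim 2
  have claim2 : ∀ τ : ℍ, y₀ ≤ τ.im → h τ = 0 := by
    intro τ hτ
    have hlim : Tendsto (fun n : ℕ => (1 / 2 : ℝ) ^ n * (K' * Real.exp (-a * τ.im))) atTop
        (nhds 0) := by
      have := (tendsto_pow_atTop_nhds_zero_of_lt_one (r := (1 / 2 : ℝ)) (by norm_num)
        (by norm_num)).mul_const (K' * Real.exp (-a * τ.im))
      simpa using this
    have : ‖h τ‖ ≤ 0 := ge_of_tendsto' hlim (fun n => claim1 n τ hτ)
    exact norm_le_zero_iff.mp this
  -- Claim 3
  have claim3 : ∀ n : ℕ, ∀ τ : ℍ, y₀ ≤ (M : ℝ) ^ n * τ.im → h τ = 0 := by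
    intro n
    induction n with
    | zero => intro τ hτ; exact claim2 τ (by simpa using hτ)
    | succ n ih =>
      intro τ hτ
      have : h (scalePt M hM0 τ) = 0 := by
        apply ih
        rw [im_scalePt]
        rw [pow_succ] at hτ
        linarith [mul_assoc ((M : ℝ) ^ n) (M : ℝ) τ.im]
      rw [hscale τ (scalePt M hM0 τ) (coe_scalePt _ _ _), this, mul_zero]
  funext τ
  obtain ⟨n, hn⟩ := pow_unbounded_of_one_lt (y₀ / τ.im) (show (1 : ℝ) < M by
    have : (2 : ℝ) ≤ M := by exact_mod_cast hM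
    linarith)
  apply claim3 n τ
  rw [div_lt_iff₀ τ.im_pos] at hn
  exact hn.le

end

end Fermat.Agent.S48.H188
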