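import Fermat.Agent.S48.H188.M4aAlg
import Fermat.Agent.S48.H548.Chi0Ops
import Fermat.Prelude.Def_ModularCurve_PeriodMap

/-!
# S48 / Tower A1, node M4a1 (helper188): the parabolic eigenclass on `Γ₁(M)`

`exists_eigenclass` : from the inputs PER1 + COMM (`PeriodInputs M`: an injective, parabolic,
linear period map on `S₂(Γ₁(M))` with transfer formulas for the generators of helper548's Hecke
algebra `heckeAlg1 M 2`, and commutativity of the generators) and ANY ring homomorphism
`χ : heckeAlg1 M 2 →+* F` (`F` a field of characteristic `ℓ > 0`) we get a nonzero parabolic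
homomorphism `c : Γ₁(M) → F`, vanishing on elements of finite order, which is a `χ`-eigenclass:
`∑ᵢ c (wᵢ) = χ t * c γ` for every transfer formula `per (t g) γ = ∑ᵢ per g (wᵢ)`.
-/

set_option autoImplicit false
set_option linter.style.haveILetI false

open CongruenceSubgroup Matrix.SpecialLinearGroup ModularCurve.Period
open scoped MatrixGroups

namespace Fermat.Agent.S48.H188

noncomputable section

open Fermat.Agent.S48.H548 (heckeGens heckeAlg1)

/-- `SL(2, ℤ)` is finitely generated (by `S` and `T`). -/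
theorem fg_SL2Z : Group.FG SL(2, ℤ) := by
  rw [Group.fg_iff]
  exact ⟨{ModularGroup.S, ModularGroup.T}, SpecialLinearGroup.SL2Z_generators, by simp⟩

/-- `Γ₁(M)` is finitely generated. -/
theorem fg_Gamma1 (M : ℕ) [NeZero M] : AddGroup.FG (Additive (Gamma1 M)) := by
  haveI := fg_SL2Z
  haveI : Group.FG (Gamma1 M) := inferInstance
  exact AddGroup.fg_iff_mul_fg.mpr ‹_›

/-- The inputs PER1 + COMM of node M4a1. -/
structure PeriodInputs (M : ℕ) [NeZero M] : Type where
  /-- the period map -/
  per : CuspForm (Gamma1 M) 2 →ₗ[ℂ] (Additive (Gamma1 M) →+ ℂ)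
  inj : Function.Injective per
  par : ∀ g, IsParabolicHom (Gamma1 M) (per g)
  comm : ∀ x ∈ heckeGens M 2, ∀ y ∈ heckeGens M 2, x * y = y * x
  transfer : ∀ t ∈ heckeGens M 2, ∀ γ : Additive (Gamma1 M),
    ∃ (ι : Type) (s : Finset ι) (w : ι → Additive (Gamma1 M)),
      ∀ g : CuspForm (Gamma1 M) 2, per (t g) γ = ∑ i ∈ s, per g (w i)

/-- An additive map to a `ℂ`-valued... (characteristic zero): periods vanish on elements of
finite order. -/
theorem per_eq_zero_of_isOfFinOrder {G : Type*} [Group G] (φ : Additive G →+ ℂ) (γ : G)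
    (hγ : IsOfFinOrder γ) : φ (Additive.ofMul γ) = 0 := by
  obtain ⟨n, hn, hγn⟩ := hγ.exists_pow_eq_one
  have h2 : φ (Additive.ofMul (γ ^ n)) = n • φ (Additive.ofMul γ) := by
    rw [ofMul_pow, map_nsmul]
  rw [hγn, ofMul_one, map_zero, nsmul_eq_mul] at h2
  rcases mul_eq_zero.mp h2.symm with h | h
  · exact absurd (by exact_mod_cast h) hn.ne'
  · exact h

/-- **Node M4a1**: the parabolic `χ`-eigenclass on `Γ₁(M)` with coefficients in `F`. -/
theorem exists_eigenclass {M : ℕ} [NeZero M] (D : PeriodInputs M)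
    {F : Type*} [Field F] (ℓ : ℕ) [Fact ℓ.Prime] [CharP F ℓ] (χ : heckeAlg1 M 2 →+* F) :
    ∃ c : Additive (Gamma1 M) →+ F, c ≠ 0 ∧ IsParabolicHom (Gamma1 M) c ∧
      (∀ γ : Gamma1 M, IsOfFinOrder γ → c (Additive.ofMul γ) = 0) ∧
      (∀ γ : Additive (Gamma1 M), (∀ g, D.per g γ = 0) → c γ = 0) ∧
      ∀ (t : heckeAlg1 M 2) (γ : Additive (Gamma1 M)) (ι : Type) (s : Finset ι)
        (w : ι → Additive (Gamma1 M)),
        (∀ g, D.per ((t : Module.End ℂ (CuspForm (Gamma1 M) 2)) g) γ = ∑ i ∈ s, D.per g (w i)) →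
          ∑ i ∈ s, c (w i) = χ t * c γ := by
  obtain ⟨c, hc0, hker, heig⟩ := exists_eigen_hom_of_per (fg_Gamma1 M) D.per D.inj
    (heckeGens M 2) D.comm D.transfer ℓ χ
  refine ⟨c, hc0, fun γ hγ => hker _ fun g => D.par g γ hγ,
    fun γ hγ => hker _ fun g => per_eq_zero_of_isOfFinOrder (D.per g) γ hγ, hker, heig⟩

/-! ### Coordinates over the prime field -/

/-- The values of an additive character of a finitely generated group lie in the span of the values
on a generating set. -/
theorem mem_span_of_closure {G : Type*} [Group G] {R V : Type*} [Ring R] [AddCommGroup V]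
    [Module R V] (c : Additive G →+ V) (S : Set G) (hS : Subgroup.closure S = ⊤) (γ : G) :
    c (Additive.ofMul γ) ∈ Submodule.span R ((fun x : G => c (Additive.ofMul x)) '' S) := by
  have hγ : γ ∈ Subgroup.closure S := hS ▸ Subgroup.mem_top γ
  induction hγ using Subgroup.closure_induction with
  | mem x hx => exact Submodule.subset_span ⟨x, hx, rfl⟩
  | one => rw [ofMul_one, map_zero]; exact Submodule.zero_mem _
  | mul x y _ _ hx hy => rw [ofMul_mul, map_add]; exact Submodule.add_mem _ hx hy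
  | inv x _ hx => rw [ofMul_inv, map_neg]; exact Submodule.neg_mem _ hx

/-- An `F`-valued additive character of a finitely generated group, in coordinates over a subfield
`k` (finitely many `k`-valued characters with `k`-linearly independent coefficients). -/
theorem exists_coords {G : Type*} [Group G] [Group.FG G] {k F : Type*} [Field k] [Field F]
    [Algebra k F] (c : Additive G →+ F) :
    ∃ (n : ℕ) (w : Fin n → F) (cc : Fin n → Additive G →+ k),
      LinearIndependent k w ∧ (∀ γ, c γ = ∑ j, w j * algebraMap k F (cc j γ)) ∧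
      (∀ γ, c γ = 0 → ∀ j, cc j γ = 0) := by
  obtain ⟨S, hS, hSfin⟩ := Group.fg_iff.mp (inferInstance : Group.FG G)
  set W : Submodule k F :=
    Submodule.span k ((fun x : G => c (Additive.ofMul x)) '' S) with hW
  have hmem : ∀ γ : Additive G, c γ ∈ W := fun γ => mem_span_of_closure c S hS (Additive.toMul γ)
  haveI : Module.Finite k W := Module.Finite.span_of_finite k (hSfin.image _)
  let b := Module.finBasis k W
  let X : Additive G →+ W :=
    { toFun := fun γ => ⟨c γ, hmem γ⟩
      map_zero' := Subtype.ext (map_zero c)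
      map_add' := fun γ γ' => Subtype.ext (map_add c γ γ') }
  refine ⟨Module.finrank k W, fun j => (b j : F),
    fun j => ((Finsupp.applyAddHom j).comp (b.repr : W →+ (Fin _ →₀ k))).comp X, ?_, ?_, ?_⟩
  · exact b.linearIndependent.map' W.subtype (Submodule.ker_subtype W)
  · intro γ
    have h1 := congrArg (fun x : W => (x : F)) (b.sum_repr (X γ))
    simp only [Submodule.coe_sum, Submodule.coe_smul] at h1
    rw [show c γ = ((X γ : W) : F) from rfl, ← h1]
    refine Finset.sum_congr rfl fun j _ => ?_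
    rw [Algebra.smul_def, mul_comm]
    rfl
  · intro γ hγ j
    have h1 : X γ = 0 := Subtype.ext hγ
    show b.repr (X γ) j = 0
    rw [h1, map_zero, Finsupp.zero_apply]

/-- **Node M4a1, coordinate form** (shape of S29 `M4aStatement`): the `χ`-eigenclass written as
`∑ⱼ wⱼ ⊗ cⱼ` with parabolic `cⱼ : Γ₁(M) → 𝔽_ℓ` and `𝔽_ℓ`-linearly independent `wⱼ ∈ F`. -/
theorem exists_eigenclass_coords {M : ℕ} [NeZero M] (D : PeriodInputs M)
    {F : Type*} [Field F] (ℓ : ℕ) [Fact ℓ.Prime] [CharP F ℓ] [Algebra (ZMod ℓ) F]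
    (χ : heckeAlg1 M 2 →+* F) :
    ∃ (n : ℕ) (w : Fin n → F) (c : Fin n → Additive (Gamma1 M) →+ ZMod ℓ),
      LinearIndependent (ZMod ℓ) w ∧ (∃ j, c j ≠ 0) ∧
      (∀ j, IsParabolicHom (Gamma1 M) (c j)) ∧
      (∀ j (γ : Gamma1 M), IsOfFinOrder γ → c j (Additive.ofMul γ) = 0) ∧
      (∀ j (γ : Additive (Gamma1 M)), (∀ g, D.per g γ = 0) → c j γ = 0) ∧
      ∀ (t : heckeAlg1 M 2) (γ : Additive (Gamma1 M)) (ι : Type) (s : Finset ι)
        (v : ι → Additive (Gamma1 M)),
        (∀ g, D.per ((t : Module.End ℂ (CuspForm (Gamma1 M) 2)) g) γ = ∑ i ∈ s, D.per g (v i)) →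
          ∑ j, w j * algebraMap (ZMod ℓ) F (∑ i ∈ s, c j (v i))
            = χ t * ∑ j, w j * algebraMap (ZMod ℓ) F (c j γ) := by
  obtain ⟨c, hc0, hpar, hfin, hker, heig⟩ := exists_eigenclass D ℓ χ
  haveI : Group.FG (Gamma1 M) := by
    haveI := fg_SL2Z
    infer_instance
  obtain ⟨n, w, cc, hw, hsum, hzero⟩ := exists_coords (k := ZMod ℓ) c
  refine ⟨n, w, cc, hw, ?_, fun j γ hγ => hzero _ (hpar γ hγ) j,
    fun j γ hγ => hzero _ (hfin γ hγ) j, fun j γ hγ => hzero _ (hker γ hγ) j, ?_⟩
  · by_contra hcon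
    rw [not_exists] at hcon
    apply hc0
    refine AddMonoidHom.ext fun γ => ?_
    rw [hsum γ]
    refine Finset.sum_eq_zero fun j _ => ?_
    rw [not_not.mp (hcon j)]
    simp
  · intro t γ ι s v hv
    rw [← hsum γ, ← heig t γ ι s v hv]
    simp only [map_sum, Finset.mul_sum]
    rw [Finset.sum_comm]
    refine Finset.sum_congr rfl fun i _ => ?_
    exact (hsum (v i)).symm

end

end Fermat.Agent.S48.H188
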