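import Mathlib

/-!
# S48 / Tower A1, node M4a1 (helper188): the abstract Nakayama step

* `exists_eigen_hom_of_commRing` : a commutative ring `A` acting faithfully on a `ℂ`-space `S`,
  a finitely generated group `G` with a separating, `A`-stable family of period functionals
  `lam γ ∈ Dual S`, and a character `χ : A → F` (`F` a field of characteristic `ℓ > 0`) give a
  nonzero additive `c : G → F` with `∑ᵢ c (wᵢ) = χ x * c γ` whenever
  `lam γ ∘ x = ∑ᵢ lam (wᵢ)`.
* `exists_eigen_hom_of_per` : the same for `A = Algebra.adjoin ℤ gens` (commuting generators with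
  transfer formulas) and a linear injective period map `per : S → Hom(G, ℂ)`.

No characteristic-zero eigenform is needed: only the ring homomorphism `χ`.
-/

set_option autoImplicit false
set_option linter.style.haveILetI false

namespace Fermat.Agent.S48.H188

noncomputable section

section Abstract

variable {S : Type*} [AddCommGroup S] [Module ℂ S]
variable {A : Type*} [CommRing A]

/-- The module structure on `Module.Dual ℂ S` over a commutative ring `A` acting on `S`:
`x • φ = φ ∘ act x`. -/
@[reducible] def dualModule (act : A →+* Module.End ℂ S) : Module A (Module.Dual ℂ S) where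
  smul x φ := φ.comp (act x)
  one_smul φ := by
    show φ.comp (act 1) = φ
    rw [map_one]; rfl
  mul_smul x y φ := by
    show φ.comp (act (x * y)) = (φ.comp (act y)).comp (act x)
    rw [mul_comm x y, map_mul]; rfl
  smul_zero x := by
    show (0 : Module.Dual ℂ S).comp (act x) = 0
    exact LinearMap.zero_comp _
  smul_add x φ ψ := by
    show (φ + ψ).comp (act x) = φ.comp (act x) + ψ.comp (act x)
    exact LinearMap.add_comp _ _ _
  add_smul x y φ := by
    show φ.comp (act (x + y)) = φ.comp (act x) + φ.comp (act y)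
    rw [map_add]; exact LinearMap.comp_add _ _ _
  zero_smul φ := by
    show φ.comp (act 0) = 0
    rw [map_zero]; exact LinearMap.comp_zero _

variable {G : Type*} [AddGroup G]

/-- The period lattice as an `A`-submodule of the dual. -/
def latticeSub (act : A →+* Module.End ℂ S) (lam : G →+ Module.Dual ℂ S)
    (hstab : ∀ (x : A) (γ : G), (lam γ).comp (act x) ∈ lam.range) :
    letI := dualModule act
    Submodule A (Module.Dual ℂ S) :=
  letI := dualModule act
  { carrier := lam.range
    add_mem' := fun {a b} ha hb => lam.range.add_mem ha hb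
    zero_mem' := lam.range.zero_mem
    smul_mem' := fun x φ hφ => by
      obtain ⟨γ, rfl⟩ := hφ
      exact hstab x γ }

/-- **Abstract Nakayama step** (M4a1): a finitely generated group `G` with a separating family of
period functionals `lam γ ∈ Dual S`, a commutative ring `A` acting faithfully on `S` and
preserving the period lattice, and a character `χ : A → F` into a field of characteristic
`ℓ > 0`.  Then there is a nonzero additive `c : G → F` which is a `χ`-eigenvector for the
transposed action of `A`. -/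
theorem exists_eigen_hom_of_commRing (hG : AddGroup.FG G)
    (lam : G →+ Module.Dual ℂ S)
    (hsep : ∀ g : S, (∀ γ, lam γ g = 0) → g = 0)
    (act : A →+* Module.End ℂ S) (hact : Function.Injective act)
    (hstab : ∀ (x : A) (γ : G), (lam γ).comp (act x) ∈ lam.range)
    {F : Type*} [Field F] (ℓ : ℕ) [Fact ℓ.Prime] [CharP F ℓ] (χ : A →+* F) :
    ∃ c : G →+ F, c ≠ 0 ∧ (∀ γ, lam γ = 0 → c γ = 0) ∧
      ∀ (x : A) (γ : G) (ι : Type) (s : Finset ι) (w : ι → G),
        (lam γ).comp (act x) = ∑ i ∈ s, lam (w i) → ∑ i ∈ s, c (w i) = χ x * c γ := by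
  letI := dualModule act
  set Λ : Submodule A (Module.Dual ℂ S) := latticeSub act lam hstab with hΛ
  have hmemΛ : ∀ φ : Module.Dual ℂ S, φ ∈ Λ ↔ φ ∈ lam.range := fun φ => Iff.rfl
  -- `Λ` is finitely generated over `ℤ`
  let toΛ : G →+ Λ :=
    { toFun := fun γ => ⟨lam γ, ⟨γ, rfl⟩⟩
      map_zero' := Subtype.ext (map_zero lam)
      map_add' := fun a b => Subtype.ext (map_add lam a b) }
  have htoΛ_surj : Function.Surjective toΛ := by
    rintro ⟨φ, γ, rfl⟩
    exact ⟨γ, rfl⟩
  haveI hfinZ : Module.Finite ℤ Λ := by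
    rw [Module.Finite.iff_addGroup_fg]
    haveI := hG
    exact AddGroup.fg_of_surjective htoΛ_surj
  haveI hfinA : Module.Finite A Λ := Module.Finite.of_restrictScalars_finite ℤ A Λ
  -- faithfulness
  have hfaith : ∀ x : A, (∀ v : Λ, x • v = 0) → x = 0 := by
    intro x hx
    apply hact
    rw [map_zero]
    refine LinearMap.ext fun g => ?_
    apply hsep
    intro γ
    have h1 := hx (toΛ γ)
    have h2 : (lam γ).comp (act x) = 0 := congrArg Subtype.val h1
    have h3 := LinearMap.congr_fun h2 g
    simpa using h3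
  -- `A` is integral over `ℤ`
  haveI hint : Algebra.IsIntegral ℤ A := by
    refine ⟨fun x => ?_⟩
    obtain ⟨P, hP, hPx⟩ := LinearMap.exists_monic_and_aeval_eq_zero ℤ
      (Algebra.lsmul ℤ ℤ Λ x)
    refine ⟨P, hP, ?_⟩
    rw [← Polynomial.aeval_def]
    apply hfaith
    intro v
    rw [Polynomial.aeval_algHom_apply] at hPx
    have h1 := LinearMap.congr_fun hPx v
    simpa using h1
  set m : Ideal A := RingHom.ker χ with hm
  haveI hprime : m.IsPrime := RingHom.ker_isPrime χ
  haveI hmax : m.IsMaximal := by
    refine Ideal.isMaximal_of_isIntegral_of_isMaximal_comap (R := ℤ) m ?_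
    have hq : ((ℓ : ℤ) : A) ∈ m := by
      rw [hm, RingHom.mem_ker, map_intCast]
      exact_mod_cast CharP.cast_eq_zero F ℓ
    have hne : m.comap (algebraMap ℤ A) ≠ ⊥ := by
      intro h
      have h1 : (ℓ : ℤ) ∈ m.comap (algebraMap ℤ A) := by
        rw [Ideal.mem_comap]
        exact hq
      rw [h, Ideal.mem_bot] at h1
      exact (Fact.out : ℓ.Prime).ne_zero (by exact_mod_cast h1)
    exact Ideal.IsPrime.isMaximal (Ideal.comap_isPrime _ _) hne
  -- Nakayama
  have hnak : ¬ ((⊤ : Submodule A Λ) ≤ m • ⊤) := by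
    intro hle
    obtain ⟨r, hr1, hr0⟩ := Submodule.exists_sub_one_mem_and_smul_eq_zero_of_fg_of_le_smul m
      (⊤ : Submodule A Λ) Module.Finite.fg_top hle
    have h5 : r = 0 := hfaith r fun v => hr0 v trivial
    rw [h5, zero_sub, hm, RingHom.mem_ker, map_neg, map_one, neg_eq_zero] at hr1
    exact one_ne_zero hr1
  obtain ⟨v, -, hv⟩ := SetLike.not_le_iff_exists.mp hnak
  letI : Field (A ⧸ m) := Ideal.Quotient.field m
  set Q := Λ ⧸ (m • ⊤ : Submodule A Λ) with hQ
  have hv0 : (Submodule.Quotient.mk v : Q) ≠ 0 := by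
    rw [Ne, Submodule.Quotient.mk_eq_zero]
    exact hv
  obtain ⟨φ, hφ⟩ : ∃ φ : Module.Dual (A ⧸ m) Q, φ (Submodule.Quotient.mk v) ≠ 0 := by
    by_contra hcon
    have hcon' : ∀ φ : Module.Dual (A ⧸ m) Q, φ (Submodule.Quotient.mk v) = 0 := fun φ =>
      by_contra fun h => hcon ⟨φ, h⟩
    exact hv0 ((Module.forall_dual_apply_eq_zero_iff (A ⧸ m) _).mp hcon')
  let ψbar : (A ⧸ m) →+* F := RingHom.kerLift χ
  have hψbar : Function.Injective ψbar := RingHom.kerLift_injective χ
  let u : Λ →+ F :=
    ((ψbar : (A ⧸ m) →+ F).comp (φ : Q →+ (A ⧸ m))).comp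
      ((Submodule.mkQ (m • ⊤ : Submodule A Λ)) : Λ →+ Q)
  have hu : ∀ (x : A) (y : Λ), u (x • y) = χ x * u y := by
    intro x y
    show ψbar (φ (Submodule.Quotient.mk (x • y))) = χ x * ψbar (φ (Submodule.Quotient.mk y))
    rw [Submodule.Quotient.mk_smul]
    have h2 : (x • (Submodule.Quotient.mk y : Q))
        = (Ideal.Quotient.mk m x) • (Submodule.Quotient.mk y : Q) := rfl
    rw [h2, map_smul, smul_eq_mul, map_mul]
    rfl
  refine ⟨u.comp toΛ, ?_, ?_, ?_⟩
  · intro h0
    obtain ⟨γ, hγ⟩ := htoΛ_surj v
    have h1 : u v = 0 := by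
      rw [← hγ]
      exact DFunLike.congr_fun h0 γ
    have h2 : ψbar (φ (Submodule.Quotient.mk v)) = 0 := h1
    rw [← map_zero ψbar] at h2
    exact hφ (hψbar h2)
  · intro γ hγ
    have h1 : toΛ γ = 0 := Subtype.ext hγ
    rw [AddMonoidHom.comp_apply, h1, map_zero]
  · intro x γ ι s w hw
    have h1 : x • toΛ γ = ∑ i ∈ s, toΛ (w i) := by
      apply Subtype.ext
      rw [Submodule.coe_sum]
      exact hw
    have h2 := hu x (toΛ γ)
    rw [h1, map_sum] at h2
    exact h2

end Abstract

/-! ### The version for an algebra generated by commuting operators and a period map -/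

section Adjoin

variable {S : Type*} [AddCommGroup S] [Module ℂ S] {G : Type*} [AddGroup G]

/-- The period functionals attached to a linear period map. -/
def perDual (per : S →ₗ[ℂ] (G →+ ℂ)) : G →+ Module.Dual ℂ S where
  toFun γ :=
    { toFun := fun g => per g γ
      map_add' := fun g g' => by rw [map_add]; rfl
      map_smul' := fun a g => by rw [map_smul]; rfl }
  map_zero' := by
    refine LinearMap.ext fun g => ?_
    exact map_zero (per g)
  map_add' γ γ' := by
    refine LinearMap.ext fun g => ?_
    exact map_add (per g) γ γ'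

@[simp] theorem perDual_apply (per : S →ₗ[ℂ] (G →+ ℂ)) (γ : G) (g : S) :
    perDual per γ g = per g γ := rfl

/-- Stability of the period lattice under the algebra generated by operators with transfer
formulas. -/
theorem perDual_comp_mem_range (per : S →ₗ[ℂ] (G →+ ℂ)) (gens : Set (Module.End ℂ S))
    (htr : ∀ t ∈ gens, ∀ γ : G, ∃ (ι : Type) (s : Finset ι) (w : ι → G),
      ∀ g : S, per (t g) γ = ∑ i ∈ s, per g (w i))
    {x : Module.End ℂ S} (hx : x ∈ Algebra.adjoin ℤ gens) (γ : G) :
    (perDual per γ).comp x ∈ (perDual per).range := by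
  have key : ∀ φ ∈ (perDual per).range, φ.comp x ∈ (perDual per).range := by
    induction hx using Algebra.adjoin_induction with
    | mem t ht =>
      rintro _ ⟨γ, rfl⟩
      obtain ⟨ι, s, w, hw⟩ := htr t ht γ
      have h1 : (perDual per γ).comp t = ∑ i ∈ s, perDual per (w i) := by
        refine LinearMap.ext fun g => ?_
        rw [LinearMap.comp_apply, perDual_apply, hw g, LinearMap.sum_apply]
        rfl
      rw [h1]
      exact (perDual per).range.sum_mem fun i _ => ⟨w i, rfl⟩
    | algebraMap r =>
      intro φ hφ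
      have h1 : φ.comp (algebraMap ℤ (Module.End ℂ S) r) = r • φ := by
        refine LinearMap.ext fun g => ?_
        rw [LinearMap.comp_apply, LinearMap.smul_apply, Algebra.algebraMap_eq_smul_one,
          LinearMap.smul_apply, map_zsmul]
        rfl
      rw [h1]
      exact (perDual per).range.zsmul_mem hφ r
    | add y z _ _ hy hz =>
      intro φ hφ
      rw [LinearMap.comp_add]
      exact (perDual per).range.add_mem (hy φ hφ) (hz φ hφ)
    | mul y z _ _ hy hz =>
      intro φ hφ
      have h1 : φ.comp (y * z) = (φ.comp y).comp z := rfl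
      rw [h1]
      exact hz _ (hy φ hφ)
  exact key _ ⟨γ, rfl⟩

open scoped IsMulCommutative in
/-- **M4a1, abstract form.**  `per : S → Hom(G, ℂ)` an injective linear period map on a finitely
generated group, `gens` a set of pairwise commuting operators on `S` each of which has a transfer
formula `per (t g) γ = ∑ᵢ per g (wᵢ)`, and `χ` a ring homomorphism from the `ℤ`-algebra generated
by `gens` to a field of characteristic `ℓ > 0`.  Then there is a nonzero additive `c : G → F`,
vanishing wherever all periods vanish, with `∑ᵢ c (wᵢ) = χ t * c γ` for EVERY transfer formula of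
every `t` in the algebra. -/
theorem exists_eigen_hom_of_per (hG : AddGroup.FG G) (per : S →ₗ[ℂ] (G →+ ℂ))
    (hinj : Function.Injective per) (gens : Set (Module.End ℂ S))
    (hcomm : ∀ x ∈ gens, ∀ y ∈ gens, x * y = y * x)
    (htr : ∀ t ∈ gens, ∀ γ : G, ∃ (ι : Type) (s : Finset ι) (w : ι → G),
      ∀ g : S, per (t g) γ = ∑ i ∈ s, per g (w i))
    {F : Type*} [Field F] (ℓ : ℕ) [Fact ℓ.Prime] [CharP F ℓ]
    (χ : Algebra.adjoin ℤ gens →+* F) :
    ∃ c : G →+ F, c ≠ 0 ∧ (∀ γ : G, (∀ g : S, per g γ = 0) → c γ = 0) ∧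
      ∀ (t : Algebra.adjoin ℤ gens) (γ : G) (ι : Type) (s : Finset ι) (w : ι → G),
        (∀ g : S, per ((t : Module.End ℂ S) g) γ = ∑ i ∈ s, per g (w i)) →
          ∑ i ∈ s, c (w i) = χ t * c γ := by
  haveI := Algebra.isMulCommutative_adjoin ℤ hcomm
  have hsep : ∀ g : S, (∀ γ, perDual per γ g = 0) → g = 0 := by
    intro g hg
    apply hinj
    rw [map_zero]
    exact AddMonoidHom.ext fun γ => hg γ
  obtain ⟨c, hc0, hcker, hceig⟩ := exists_eigen_hom_of_commRing (A := Algebra.adjoin ℤ gens) hG
    (perDual per) hsep (Algebra.adjoin ℤ gens).val.toRingHom Subtype.val_injective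
    (fun x γ => perDual_comp_mem_range per gens htr x.2 γ) ℓ χ
  refine ⟨c, hc0, fun γ hγ => hcker γ (LinearMap.ext fun g => hγ g), ?_⟩
  intro t γ ι s w hw
  refine hceig t γ ι s w ?_
  refine LinearMap.ext fun g => ?_
  rw [LinearMap.sum_apply]
  exact hw g

end Adjoin


end

end Fermat.Agent.S48.H188
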