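import Mathlib

/-!
# S48 / P0 — integer matrices acting by the slash operator (helper188)

`gl a b c d` is the element of `GL₂(ℝ)` with integer entries `a b c d` (junk value `1` when the
determinant vanishes).  Everything that follows is stated through `gl`, so that identities between
slash operators reduce to identities between integers.
-/

set_option autoImplicit false

open scoped MatrixGroups ModularForm
open UpperHalfPlane CongruenceSubgroup Matrix

namespace Fermat.Agent.S48.H188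

noncomputable section

/-- The element of `GL₂(ℝ)` with integer entries `a b c d`. -/
def gl (a b c d : ℤ) : GL (Fin 2) ℝ :=
  if h : ((a : ℝ) * d - b * c) ≠ 0 then
    Matrix.GeneralLinearGroup.mkOfDetNeZero !![(a : ℝ), b; c, d]
      (by rwa [Matrix.det_fin_two_of])
  else 1

lemma gl_ne {a b c d : ℤ} (h : a * d - b * c ≠ 0) : ((a : ℝ) * d - b * c) ≠ 0 := by
  exact_mod_cast h

lemma gl_val {a b c d : ℤ} (h : a * d - b * c ≠ 0) :
    ((gl a b c d : GL (Fin 2) ℝ) : Matrix (Fin 2) (Fin 2) ℝ) = !![(a : ℝ), b; c, d] := by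
  simp [gl, gl_ne h, Matrix.GeneralLinearGroup.mkOfDetNeZero]

lemma gl_det {a b c d : ℤ} (h : a * d - b * c ≠ 0) :
    ((gl a b c d).det : ℝ) = a * d - b * c := by
  rw [Matrix.GeneralLinearGroup.val_det_apply, gl_val h, Matrix.det_fin_two_of]

lemma gl_mul {a b c d a' b' c' d' : ℤ} (h : a * d - b * c ≠ 0) (h' : a' * d' - b' * c' ≠ 0) :
    gl a b c d * gl a' b' c' d' =
      gl (a * a' + b * c') (a * b' + b * d') (c * a' + d * c') (c * b' + d * d') := by
  have h'' : (a * a' + b * c') * (c * b' + d * d') - (a * b' + b * d') * (c * a' + d * c') ≠ 0 := by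
    have : (a * a' + b * c') * (c * b' + d * d') - (a * b' + b * d') * (c * a' + d * c')
        = (a * d - b * c) * (a' * d' - b' * c') := by ring
    rw [this]; exact mul_ne_zero h h'
  apply Units.ext
  rw [Units.val_mul, gl_val h, gl_val h', gl_val h'']
  rw [Matrix.mul_fin_two]
  push_cast
  rfl

lemma gl_one : gl 1 0 0 1 = 1 := by
  apply Units.ext
  rw [gl_val (by norm_num)]
  simp [Matrix.one_fin_two]

/-- The coercion of `SL₂(ℤ)` into `GL₂(ℝ)` in terms of `gl`. -/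
lemma coe_SL_eq_gl (γ : SL(2, ℤ)) :
    (γ : GL (Fin 2) ℝ) = gl (γ 0 0) (γ 0 1) (γ 1 0) (γ 1 1) := by
  have hdet : (γ 0 0) * (γ 1 1) - (γ 0 1) * (γ 1 0) = 1 := by
    have := γ.det_coe
    rwa [Matrix.det_fin_two] at this
  apply Units.ext
  rw [gl_val (by rw [hdet]; norm_num)]
  ext i j
  fin_cases i <;> fin_cases j <;> simp

/-- The element of `SL₂(ℤ)` with entries `a b c d`. -/
def sl (a b c d : ℤ) (h : a * d - b * c = 1) : SL(2, ℤ) :=
  ⟨!![a, b; c, d], by rw [Matrix.det_fin_two_of]; exact h⟩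

@[simp] lemma sl_00 (a b c d : ℤ) (h : a * d - b * c = 1) : (sl a b c d h) 0 0 = a := rfl
@[simp] lemma sl_01 (a b c d : ℤ) (h : a * d - b * c = 1) : (sl a b c d h) 0 1 = b := rfl
@[simp] lemma sl_10 (a b c d : ℤ) (h : a * d - b * c = 1) : (sl a b c d h) 1 0 = c := rfl
@[simp] lemma sl_11 (a b c d : ℤ) (h : a * d - b * c = 1) : (sl a b c d h) 1 1 = d := rfl

lemma coe_sl (a b c d : ℤ) (h : a * d - b * c = 1) :
    ((sl a b c d h : SL(2, ℤ)) : GL (Fin 2) ℝ) = gl a b c d := by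
  rw [coe_SL_eq_gl]; rfl

lemma SL_det_eq (γ : SL(2, ℤ)) : (γ 0 0) * (γ 1 1) - (γ 0 1) * (γ 1 0) = 1 := by
  have := γ.det_coe
  rwa [Matrix.det_fin_two] at this

variable {k : ℤ}

/-- Slash by a product of integer matrices. -/
lemma slash_gl_mul (F : ℍ → ℂ) {a b c d a' b' c' d' : ℤ}
    (h : a * d - b * c ≠ 0) (h' : a' * d' - b' * c' ≠ 0) :
    (F ∣[k] gl a b c d) ∣[k] gl a' b' c' d' =
      F ∣[k] gl (a * a' + b * c') (a * b' + b * d') (c * a' + d * c') (c * b' + d * d') := by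
  rw [← SlashAction.slash_mul, gl_mul h h']

/-- Slash by an element of `SL₂(ℤ)` followed by an integer matrix. -/
lemma slash_SL_gl (F : ℍ → ℂ) (γ : SL(2, ℤ)) {a' b' c' d' : ℤ} (h' : a' * d' - b' * c' ≠ 0) :
    (F ∣[k] γ) ∣[k] gl a' b' c' d' =
      F ∣[k] gl (γ 0 0 * a' + γ 0 1 * c') (γ 0 0 * b' + γ 0 1 * d')
        (γ 1 0 * a' + γ 1 1 * c') (γ 1 0 * b' + γ 1 1 * d') := by
  rw [ModularForm.SL_slash, coe_SL_eq_gl, slash_gl_mul F (by rw [SL_det_eq]; norm_num) h']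

/-- Slash by an integer matrix followed by an element of `SL₂(ℤ)`. -/
lemma slash_gl_SL (F : ℍ → ℂ) (γ : SL(2, ℤ)) {a b c d : ℤ} (h : a * d - b * c ≠ 0) :
    (F ∣[k] gl a b c d) ∣[k] γ =
      F ∣[k] gl (a * γ 0 0 + b * γ 1 0) (a * γ 0 1 + b * γ 1 1)
        (c * γ 0 0 + d * γ 1 0) (c * γ 0 1 + d * γ 1 1) := by
  rw [ModularForm.SL_slash, coe_SL_eq_gl, slash_gl_mul F h (by rw [SL_det_eq]; norm_num)]

lemma slash_SL_eq_gl (F : ℍ → ℂ) (γ : SL(2, ℤ)) :
    F ∣[k] γ = F ∣[k] gl (γ 0 0) (γ 0 1) (γ 1 0) (γ 1 1) := by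
  rw [ModularForm.SL_slash, coe_SL_eq_gl]

/-- The action of an upper triangular integer matrix with positive diagonal on `ℍ`. -/
lemma coe_gl_upper_smul {a b d : ℤ} (ha : 0 < a) (hd : 0 < d) (τ : ℍ) :
    ((gl a b 0 d • τ : ℍ) : ℂ) = ((a : ℂ) * τ + b) / d := by
  have hdet : a * d - b * 0 ≠ 0 := by
    simp only [mul_zero, sub_zero]; exact (mul_pos ha hd).ne'
  have hpos : 0 < ((gl a b 0 d).det : ℝ) := by
    rw [gl_det hdet]; push_cast; simp only [mul_zero, sub_zero]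
    exact_mod_cast mul_pos ha hd
  rw [UpperHalfPlane.coe_smul_of_det_pos hpos]
  simp [UpperHalfPlane.num, UpperHalfPlane.denom, gl_val hdet]

lemma slash_gl_upper_apply (F : ℍ → ℂ) {a b d : ℤ} (ha : 0 < a) (hd : 0 < d) (τ : ℍ) :
    (F ∣[k] gl a b 0 d) τ = F (gl a b 0 d • τ) * ((a : ℂ) * d) ^ (k - 1) * (d : ℂ) ^ (-k) := by
  have hdet : a * d - b * 0 ≠ 0 := by
    simp only [mul_zero, sub_zero]; exact (mul_pos ha hd).ne'
  have hpos : 0 < ((gl a b 0 d).det : ℝ) := by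
    rw [gl_det hdet]; push_cast; simp only [mul_zero, sub_zero]
    exact_mod_cast mul_pos ha hd
  rw [ModularForm.slash_apply]
  have h1 : UpperHalfPlane.σ (gl a b 0 d) = ContinuousAlgEquiv.refl ℝ ℂ := by
    unfold UpperHalfPlane.σ
    rw [if_pos hpos]
  have h2 : |((gl a b 0 d).det : ℝ)| = (a : ℝ) * d := by
    rw [abs_of_pos hpos, gl_det hdet]; push_cast; ring
  rw [h1, h2]
  simp [UpperHalfPlane.denom, gl_val hdet]

end

end Fermat.Agent.S48.H188
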