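import Fermat.Agent.S48.H188.Vanish

set_option autoImplicit false

open scoped MatrixGroups ModularForm
open UpperHalfPlane CongruenceSubgroup Matrix Filter Asymptotics Function

namespace Fermat.Agent.S48.H188

noncomputable section

variable {N : ℕ}

lemma cuspForm_inv1 (f : CuspForm (Gamma1 N) 1) : Inv1 N 1 (⇑f) := by
  intro γ hγ
  rw [ModularForm.SL_slash]
  exact SlashInvariantFormClass.slash_action_eq f _ (Subgroup.mem_map_of_mem _ hγ)

/-- A matrix in `Γ₀(N)` with lower right entry `≡ p mod N`. -/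
lemma exists_gammaP {p : ℕ} (hpN : Nat.Coprime p N) :
    ∃ γp : SL(2, ℤ), γp ∈ Gamma0 N ∧ dd N γp = (p : ZMod N) := by
  obtain ⟨a, b, c, d, hdet, hc, hpd⟩ := exists_ghat (N := N) hpN
  have hg : sl a (p * b) c d hdet ∈ Gamma0 N := by
    rw [Gamma0_mem]; simpa using hc
  refine ⟨(sl a (p * b) c d hdet)⁻¹, (Gamma0 N).inv_mem hg, ?_⟩
  have h1 := dd_inv_mul hg
  have h2 : dd N (sl a (p * b) c d hdet) = (d : ZMod N) := rfl
  rw [h2] at h1
  calc dd N (sl a (p * b) c d hdet)⁻¹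
      = dd N (sl a (p * b) c d hdet)⁻¹ * ((p : ZMod N) * (d : ZMod N)) := by rw [hpd, mul_one]
    _ = (p : ZMod N) * (dd N (sl a (p * b) c d hdet)⁻¹ * (d : ZMod N)) := by ring
    _ = (p : ZMod N) := by rw [h1, mul_one]

/-- **P0 at one prime.**  The formal Hecke relation at `p ∤ N` with "character value" `e` forces
`f∣γ = e f` for all `γ ∈ Γ₀(N)` with `d_γ ≡ p mod N`. -/
theorem slash_eq_of_hecke [NeZero N] (f : CuspForm (Gamma1 N) 1) {p : ℕ} (hp : p.Prime)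
    (hpN : ¬ p ∣ N) (e : ℂ)
    (hT : ∀ n : ℕ, ModularFormClass.qCoeff f (p * n) +
        e * (if p ∣ n then ModularFormClass.qCoeff f (n / p) else 0) =
      ModularFormClass.qCoeff f p * ModularFormClass.qCoeff f n)
    {γ : SL(2, ℤ)} (hγ : γ ∈ Gamma0 N) (hd : dd N γ = (p : ZMod N)) :
    (⇑f) ∣[(1 : ℤ)] γ = e • ⇑f := by
  have : Fact p.Prime := ⟨hp⟩
  have : NeZero p := ⟨hp.ne_zero⟩
  have hcop : Nat.Coprime p N := (Nat.Prime.coprime_iff_not_dvd hp).mpr hpN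
  have hF := cuspForm_inv1 f
  have hhol : MDifferentiable (modelWithCornersSelf ℂ ℂ) (modelWithCornersSelf ℂ ℂ) (⇑f) :=
    CuspFormClass.holo f
  have hzero : IsZeroAtImInfty (⇑f) := CuspFormClass.zero_at_infty f
  have hp' : (0 : ℤ) < p := by exact_mod_cast hp.pos
  set h : ℍ → ℂ := (⇑f) ∣[(1 : ℤ)] γ - e • ⇑f with hh
  have hA := hecke_functional_eq hF.periodic_comp_ofComplex hhol hzero.boundedAtFilter p hp.pos e hT
  have hT' := heckeT_inv (k := 1) p hcop hF hγ hd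
  rw [heckeT_eq, sum_zmod_val p (fun j => (⇑f) ∣[(1 : ℤ)] gl 1 (j : ℤ) 0 p)] at hT'
  have h2 : h ∣[(1 : ℤ)] gl p 0 0 1 =
      (((⇑f) ∣[(1 : ℤ)] γ) ∣[(1 : ℤ)] gl p 0 0 1 +
        ∑ j ∈ Finset.range p, (⇑f) ∣[(1 : ℤ)] gl 1 (j : ℤ) 0 p)
        - (UpperHalfPlane.qExpansion 1 ⇑f).coeff p • ⇑f := by
    rw [hh, sub_slash, smul_slash_gl_upper _ _ hp' one_pos, ← hA]
    abel
  have hInv2 : Inv2 N p 1 h :=
    ⟨(hF.slash hγ).sub (hF.smul e), by rw [h2]; exact hT'.sub (hF.smul _)⟩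
  have hhol' : MDifferentiable (modelWithCornersSelf ℂ ℂ) (modelWithCornersSelf ℂ ℂ) h := by
    rw [hh]
    exact (hhol.slash 1 _).sub (hhol.const_smul e)
  have hzero' : IsZeroAtImInfty h := by
    rw [hh]
    have h1 : IsZeroAtImInfty ((⇑f) ∣[(1 : ℤ)] γ) := CuspFormClass.zero_at_infty_slash f γ
    have h3 : IsZeroAtImInfty (e • ⇑f) := ZeroAtFilter.smul e hzero
    rw [sub_eq_add_neg]
    exact ZeroAtFilter.add h1 (ZeroAtFilter.neg h3)
  have := hInv2.eq_zero hp hcop hhol' hzero'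
  rw [hh] at this
  exact sub_eq_zero.mp this

/-- **P0 (nebentypus).**  A weight one cusp form on `Γ₁(N)` whose `q`-expansion satisfies the
Hecke relations with character `ε` at all primes `p ∤ N` has nebentypus `ε`:
`f∣γ = ε(d_γ) f` for all `γ ∈ Γ₀(N)`. -/
theorem nebentypus [NeZero N] (ε : DirichletCharacter ℂ N) (f : CuspForm (Gamma1 N) 1)
    (hT : ∀ p : ℕ, p.Prime → ¬ p ∣ N → ∀ n : ℕ,
        ModularFormClass.qCoeff f (p * n) +
            ε (p : ZMod N) * (if p ∣ n then ModularFormClass.qCoeff f (n / p) else 0) =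
          ModularFormClass.qCoeff f p * ModularFormClass.qCoeff f n)
    {γ : SL(2, ℤ)} (hγ : γ ∈ Gamma0 N) :
    (⇑f) ∣[(1 : ℤ)] γ = ε (((γ 1 1 : ℤ) : ZMod N)) • ⇑f := by
  have hu : IsUnit (dd N γ) := .of_mul_eq_one _ (dd_mul_inv hγ)
  obtain ⟨p, hpgt, hp, hpd⟩ := Nat.forall_exists_prime_gt_and_eq_mod hu N
  have hpN : ¬ p ∣ N := fun hdvd =>
    absurd (Nat.le_of_dvd (Nat.pos_of_ne_zero (NeZero.ne N)) hdvd) (not_le.mpr hpgt)
  have := slash_eq_of_hecke f hp hpN (ε (p : ZMod N)) (hT p hp hpN) hγ hpd.symm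
  rw [this, hpd]
  rfl

end

end Fermat.Agent.S48.H188

namespace Fermat.Agent.S48.H188

noncomputable section

variable {N : ℕ}

/-- **P0, eigenform part.**  Under the hypotheses of S48, `f` is an eigenfunction of the genuine
Hecke operator `T_p` (`p ∤ N`) on `Γ₁(N)`, with eigenvalue `a_p`. -/
theorem heckeT_eigen [NeZero N] (ε : DirichletCharacter ℂ N) (f : CuspForm (Gamma1 N) 1)
    (hT : ∀ p : ℕ, p.Prime → ¬ p ∣ N → ∀ n : ℕ,
        ModularFormClass.qCoeff f (p * n) +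
            ε (p : ZMod N) * (if p ∣ n then ModularFormClass.qCoeff f (n / p) else 0) =
          ModularFormClass.qCoeff f p * ModularFormClass.qCoeff f n)
    {p : ℕ} [hpf : Fact p.Prime] (hpN : ¬ p ∣ N)
    {γp : SL(2, ℤ)} (hγp : γp ∈ Gamma0 N) (hdp : dd N γp = (p : ZMod N)) :
    heckeT p 1 γp (⇑f) = ModularFormClass.qCoeff f p • ⇑f := by
  have hp := hpf.out
  have : NeZero p := ⟨hp.ne_zero⟩
  have hp' : (0 : ℤ) < p := by exact_mod_cast hp.pos
  have hF := cuspForm_inv1 f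
  have hA := hecke_functional_eq hF.periodic_comp_ofComplex (CuspFormClass.holo f)
    (CuspFormClass.zero_at_infty f).boundedAtFilter p hp.pos (ε (p : ZMod N)) (hT p hp hpN)
  rw [heckeT_eq, sum_zmod_val p (fun j => (⇑f) ∣[(1 : ℤ)] gl 1 (j : ℤ) 0 p),
    slash_eq_of_hecke f hp hpN (ε (p : ZMod N)) (hT p hp hpN) hγp hdp,
    smul_slash_gl_upper _ _ hp' one_pos, add_comm]
  exact hA

end

end Fermat.Agent.S48.H188
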