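import Fermat.Agent.S48.H188.LemmaY

set_option autoImplicit false

open scoped MatrixGroups ModularForm
open UpperHalfPlane CongruenceSubgroup Matrix Filter Asymptotics

namespace Fermat.Agent.S48.H188

noncomputable section

lemma sum_zmod_val {M : Type*} [AddCommMonoid M] (p : ℕ) [NeZero p] (G : ℕ → M) :
    ∑ j : ZMod p, G j.val = ∑ j ∈ Finset.range p, G j := by
  cases p with
  | zero => exact absurd rfl (NeZero.ne 0)
  | succ n => exact Fin.sum_univ_eq_sum_range G (n + 1)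

/-- Sum of the `m`-th powers of the `p`-th roots of unity. -/
lemma sum_pow_root (p : ℕ) {ζ : ℂ} (hζ : IsPrimitiveRoot ζ p) (m : ℕ) :
    ∑ j ∈ Finset.range p, (ζ ^ j) ^ m = if p ∣ m then (p : ℂ) else 0 := by
  have h1 : ∀ j : ℕ, (ζ ^ j) ^ m = (ζ ^ m) ^ j := fun j => by
    rw [← pow_mul, ← pow_mul, mul_comm]
  simp_rw [h1]
  split_ifs with hdiv
  · have : ζ ^ m = 1 := by
      obtain ⟨t, rfl⟩ := hdiv
      rw [pow_mul, hζ.pow_eq_one, one_pow]
    simp [this]
  · have hne : ζ ^ m ≠ 1 := fun h => hdiv ((hζ.pow_eq_one_iff_dvd m).mp h)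
    have h2 : (ζ ^ m) ^ p = 1 := by rw [← pow_mul, mul_comm, pow_mul, hζ.pow_eq_one, one_pow]
    have := geom_sum_mul (ζ ^ m) p
    rw [h2, sub_self] at this
    rcases mul_eq_zero.mp this with h | h
    · exact h
    · exact absurd (sub_eq_zero.mp h) hne

/-- Roots of unity filter for a convergent power series. -/
lemma hasSum_filter (p : ℕ) (hp : 0 < p) {ζ : ℂ} (hζ : IsPrimitiveRoot ζ p) (a : ℕ → ℂ) (ξ : ℂ)
    (S : ℕ → ℂ) (hS : ∀ j ∈ Finset.range p, HasSum (fun m => a m * (ξ * ζ ^ j) ^ m) (S j)) :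
    HasSum (fun m => a (p * m) * (ξ ^ p) ^ m) ((p : ℂ)⁻¹ * ∑ j ∈ Finset.range p, S j) := by
  have h1 := hasSum_sum hS
  have h2 : (fun m => ∑ j ∈ Finset.range p, a m * (ξ * ζ ^ j) ^ m)
      = fun m => (p : ℂ) * (if p ∣ m then a m * ξ ^ m else 0) := by
    funext m
    simp_rw [mul_pow, ← mul_assoc]
    rw [← Finset.mul_sum, sum_pow_root p hζ m]
    split_ifs <;> ring
  rw [h2] at h1
  have hpC : (p : ℂ) ≠ 0 := by exact_mod_cast hp.ne'
  have h3 := h1.mul_left ((p : ℂ)⁻¹)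
  simp_rw [← mul_assoc, inv_mul_cancel₀ hpC, one_mul] at h3
  have hinj : Function.Injective (fun m : ℕ => p * m) := fun x y h =>
    Nat.eq_of_mul_eq_mul_left hp h
  have hsupp : ∀ x ∉ Set.range (fun m : ℕ => p * m),
      (fun m => if p ∣ m then a m * ξ ^ m else 0) x = 0 := by
    intro x hx
    have : ¬ p ∣ x := fun ⟨t, ht⟩ => hx ⟨t, ht.symm⟩
    simp [this]
  have h4 := (hinj.hasSum_iff hsupp).mpr h3
  convert h4 using 1
  funext m
  simp [Function.comp, pow_mul]

/-- Reindexing the `q`-expansion of `F(pτ)`. -/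
lemma hasSum_dilate (p : ℕ) (hp : 0 < p) (a : ℕ → ℂ) (q : ℂ) (S : ℂ)
    (hS : HasSum (fun m => a m * (q ^ p) ^ m) S) :
    HasSum (fun m => (if p ∣ m then a (m / p) else 0) * q ^ m) S := by
  have hinj : Function.Injective (fun m : ℕ => p * m) := fun x y h =>
    Nat.eq_of_mul_eq_mul_left hp h
  have hsupp : ∀ x ∉ Set.range (fun m : ℕ => p * m),
      (fun m => (if p ∣ m then a (m / p) else 0) * q ^ m) x = 0 := by
    intro x hx
    have : ¬ p ∣ x := fun ⟨t, ht⟩ => hx ⟨t, ht.symm⟩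
    simp [this]
  refine (hinj.hasSum_iff hsupp).mp ?_
  convert hS using 1
  funext m
  simp [Function.comp, pow_mul, Nat.mul_div_cancel_left m hp]

end

end Fermat.Agent.S48.H188

namespace Fermat.Agent.S48.H188

noncomputable section

open Function

local notation "𝕢" => Periodic.qParam

/-- **Step A.**  The formal Hecke relation at `p` (weight `1`, "character value" `e`) gives the
functional equation `∑_j F∣(1 j; 0 p) + e · F∣(p 0; 0 1) = a_p F`. -/
theorem hecke_functional_eq {F : ℍ → ℂ} (hper : Periodic (F ∘ ofComplex) 1)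
    (hhol : MDifferentiable (modelWithCornersSelf ℂ ℂ) (modelWithCornersSelf ℂ ℂ) F)
    (hbdd : IsBoundedAtImInfty F)
    (p : ℕ) (hp : 0 < p) (e : ℂ)
    (hT : ∀ n : ℕ, (qExpansion 1 F).coeff (p * n) +
        e * (if p ∣ n then (qExpansion 1 F).coeff (n / p) else 0) =
      (qExpansion 1 F).coeff p * (qExpansion 1 F).coeff n) :
    (∑ j ∈ Finset.range p, F ∣[(1 : ℤ)] gl 1 (j : ℤ) 0 p) + e • (F ∣[(1 : ℤ)] gl p 0 0 1)
      = (qExpansion 1 F).coeff p • F := by
  funext τ
  have hp' : (0 : ℤ) < p := by exact_mod_cast hp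
  have hpC : (p : ℂ) ≠ 0 := by exact_mod_cast hp.ne'
  set a : ℕ → ℂ := fun n => (qExpansion 1 F).coeff n with ha
  set q : ℂ := 𝕢 1 τ with hq
  set ξ : ℂ := Complex.exp (2 * Real.pi * Complex.I * τ / p) with hξ
  set ζ : ℂ := Complex.exp (2 * Real.pi * Complex.I / p) with hζ
  have hζp : IsPrimitiveRoot ζ p := Complex.isPrimitiveRoot_exp p hp.ne'
  have hξq : ξ ^ p = q := by
    rw [hξ, hq, Periodic.qParam, ← Complex.exp_nat_mul]
    congr 1
    field_simp
    simp
  have hsum : ∀ σ : ℍ, HasSum (fun m => a m * (𝕢 1 σ) ^ m) (F σ) := fun σ => by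
    simpa [smul_eq_mul] using hasSum_qExpansion (h := 1) one_pos hper hhol hbdd σ
  -- the translates
  have hβ : ∀ j : ℕ, 𝕢 1 ((gl 1 (j : ℤ) 0 p • τ : ℍ) : ℂ) = ξ * ζ ^ j := by
    intro j
    rw [coe_gl_upper_smul one_pos hp', Periodic.qParam, hξ, hζ, ← Complex.exp_nat_mul,
      ← Complex.exp_add]
    congr 1
    push_cast
    field_simp
  have hα : 𝕢 1 ((gl p 0 0 1 • τ : ℍ) : ℂ) = q ^ p := by
    rw [coe_gl_upper_smul hp' one_pos, hq, Periodic.qParam, Periodic.qParam,
      ← Complex.exp_nat_mul]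
    congr 1
    push_cast
    field_simp
    ring
  have h1 : HasSum (fun m => a (p * m) * q ^ m)
      ((p : ℂ)⁻¹ * ∑ j ∈ Finset.range p, F (gl 1 (j : ℤ) 0 p • τ)) := by
    have := hasSum_filter p hp hζp a ξ (fun j => F (gl 1 (j : ℤ) 0 p • τ))
      (fun j _ => by simpa [hβ j] using hsum (gl 1 (j : ℤ) 0 p • τ))
    simpa [hξq] using this
  have h2 : HasSum (fun m => (if p ∣ m then a (m / p) else 0) * q ^ m) (F (gl p 0 0 1 • τ)) := by
    apply hasSum_dilate p hp a q
    simpa [hα] using hsum (gl p 0 0 1 • τ)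
  have h3 : HasSum (fun m => (a p * a m) * q ^ m) (a p * F τ) := by
    have := (hsum τ).mul_left (a p)
    simpa [mul_assoc] using this
  have h4 : HasSum (fun m => (a p * a m) * q ^ m)
      ((p : ℂ)⁻¹ * ∑ j ∈ Finset.range p, F (gl 1 (j : ℤ) 0 p • τ) + e * F (gl p 0 0 1 • τ)) := by
    have := h1.add (h2.mul_left e)
    convert this using 1
    funext m
    rw [← hT m]
    ring
  have h5 := h4.unique h3
  simp only [Pi.add_apply, Finset.sum_apply, Pi.smul_apply, smul_eq_mul]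
  rw [← h5]
  congr 1
  · rw [Finset.mul_sum]
    apply Finset.sum_congr rfl
    intro j _
    rw [slash_gl_upper_apply F one_pos hp']
    simp only [sub_self, zpow_zero, mul_one, Int.cast_natCast, _root_.zpow_neg, zpow_one]
    ring
  · rw [slash_gl_upper_apply F hp' one_pos]
    simp

end

end Fermat.Agent.S48.H188
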