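import Fermat.Agent.S48.H188.StepA
import Fermat.Prelude.Def_FLTPrelim_Modularity

set_option autoImplicit false

open scoped MatrixGroups ModularForm
open UpperHalfPlane CongruenceSubgroup Matrix Filter Asymptotics Function

namespace Fermat.Agent.S48.H188

noncomputable section

variable {k : ℤ} {N : ℕ} {p : ℕ}

lemma Inv1.periodic_comp_ofComplex {F : ℍ → ℂ} (hF : Inv1 N k F) :
    Periodic (F ∘ ofComplex) (1 : ℂ) := by
  intro w
  by_cases! hw : 0 < Complex.im w
  · have : 0 < Complex.im (w + 1) := by simp [hw]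
    simp only [Function.comp_apply, ofComplex_apply_of_im_pos this, ofComplex_apply_of_im_pos hw]
    exact hF.periodic _ _ 1 (by simp)
  · have : Complex.im (w + 1) ≤ 0 := by simpa using hw
    simp [ofComplex_apply_of_im_nonpos this, ofComplex_apply_of_im_nonpos hw]

lemma smul_slash_gl_upper (F : ℍ → ℂ) (c : ℂ) {a b d : ℤ} (ha : 0 < a) (hd : 0 < d) :
    (c • F) ∣[k] gl a b 0 d = c • (F ∣[k] gl a b 0 d) := by
  funext τ
  rw [slash_gl_upper_apply _ ha hd, Pi.smul_apply, Pi.smul_apply, slash_gl_upper_apply _ ha hd]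
  simp only [smul_eq_mul]; ring

lemma sub_slash (F G : ℍ → ℂ) (g : GL (Fin 2) ℝ) :
    (F - G) ∣[k] g = F ∣[k] g - G ∣[k] g := by
  rw [sub_eq_add_neg, SlashAction.add_slash, SlashAction.neg_slash, sub_eq_add_neg]

/-- **Vanishing lemma.**  If `h` and `h∣(p 0; 0 1)` are both `Γ₁(N)`-invariant of weight `k`
(`p ∤ N` prime) and `h` is holomorphic and vanishes at `i∞`, then `h = 0`. -/
theorem Inv2.eq_zero [NeZero N] (hp : p.Prime) (hpN : Nat.Coprime p N) {h : ℍ → ℂ}
    (hh : Inv2 N p k h)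
    (hhol : MDifferentiable (modelWithCornersSelf ℂ ℂ) (modelWithCornersSelf ℂ ℂ) h)
    (hzero : IsZeroAtImInfty h) : h = 0 := by
  have hdecay := UpperHalfPlane.IsZeroAtImInfty.exp_decay_atImInfty hzero one_pos
    hh.1.periodic_comp_ofComplex hhol hzero.boundedAtFilter
  have hM : 2 ≤ p ^ (2 * N.totient) := by
    have h1 : 1 ≤ N.totient := Nat.totient_pos.mpr (Nat.pos_of_ne_zero (NeZero.ne N))
    calc 2 ≤ p := hp.two_le
      _ = p ^ 1 := (pow_one p).symm
      _ ≤ p ^ (2 * N.totient) := Nat.pow_le_pow_right hp.pos (by omega)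
  refine eq_zero_of_scaling (c := ((p : ℂ) ^ k) ^ N.totient) hM (a := 2 * Real.pi)
    (by positivity) (fun w w' hw => hh.scaling hp.pos hpN w w' hw) ?_
  convert hdecay using 2 with τ
  ring_nf

end

end Fermat.Agent.S48.H188
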